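/-
KL-A, node (4)-S28 "vertical modular inputs" (owner of this file: helper88).

Laurent series with coefficients in a valuation subring `A` of a field `K`:
inclusion into `K((q))`, reduction to `k((q))`, division by a uniformizer.
-/
import Mathlib
import Fermat.Prelude.Def_ModularCurve_LaurentCoeff

set_option autoImplicit false

noncomputable section

namespace Fermat.Agent.S18.Vert

open ModularCurve

variable {K : Type*} [Field K] (A : ValuationSubring K)

/-- The inclusion `A((q)) → K((q))`. -/
def inc : LaurentSeries A →+* LaurentSeries K := coeffMap A.subtype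

/-- The reduction `A((q)) → k((q))`, `k` the residue field of `A`. -/
def red : LaurentSeries A →+* LaurentSeries (IsLocalRing.ResidueField A) :=
  coeffMap (IsLocalRing.residue A)

@[simp] theorem inc_coeff (P : LaurentSeries A) (n : ℤ) : (inc A P).coeff n = (P.coeff n : K) := rfl

@[simp] theorem red_coeff (P : LaurentSeries A) (n : ℤ) :
    (red A P).coeff n = IsLocalRing.residue A (P.coeff n) := rfl

theorem inc_injective : Function.Injective (inc A) := by
  intro P Q h
  ext n
  have := congrArg (fun x => HahnSeries.coeff x n) h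
  simpa using this

theorem inc_eq_zero_iff {P : LaurentSeries A} : inc A P = 0 ↔ P = 0 :=
  map_eq_zero_iff _ (inc_injective A)

/-- The lift of a series with coefficients in `A`. -/
def liftS (f : LaurentSeries K) (h : ∀ n, f.coeff n ∈ A) : LaurentSeries A where
  coeff n := ⟨f.coeff n, h n⟩
  isPWO_support' := by
    refine f.isPWO_support.mono ?_
    intro n hn
    simp only [Function.mem_support, ne_eq] at hn ⊢
    intro h0
    exact hn (Subtype.ext h0)

@[simp] theorem inc_liftS (f : LaurentSeries K) (h : ∀ n, f.coeff n ∈ A) :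
    inc A (liftS A f h) = f := by
  ext n
  rfl

theorem mem_range_inc_iff (f : LaurentSeries K) :
    f ∈ (inc A).range ↔ ∀ n, f.coeff n ∈ A := by
  constructor
  · rintro ⟨P, rfl⟩ n
    exact (P.coeff n).2
  · intro h
    exact ⟨liftS A f h, inc_liftS A f h⟩

/-- Constants. -/
theorem inc_C (a : A) : inc A (HahnSeries.C a) = algebraMap K (LaurentSeries K) (a : K) := by
  rw [algebraMap_laurentSeries_eq_single]
  exact coeffMap_single _ 0 a

theorem red_C (a : A) : red A (HahnSeries.C a) = HahnSeries.C (IsLocalRing.residue A a) :=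
  coeffMap_single _ 0 a

theorem coeff_C_mul (a : A) (P : LaurentSeries A) (n : ℤ) :
    (HahnSeries.C a * P).coeff n = a * P.coeff n := by
  rw [HahnSeries.C_apply, HahnSeries.coeff_single_mul, sub_zero]

theorem coeff_algebraMap_mul (c : K) (f : LaurentSeries K) (n : ℤ) :
    (algebraMap K (LaurentSeries K) c * f).coeff n = c * f.coeff n := by
  rw [algebraMap_laurentSeries_eq_single, HahnSeries.coeff_single_mul, sub_zero]

section DVR

variable {A}
variable [IsDiscreteValuationRing A] {π : A}

theorem residue_eq_zero_iff_dvd (hπ : Irreducible π) (a : A) :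
    IsLocalRing.residue A a = 0 ↔ π ∣ a := by
  rw [IsLocalRing.residue_eq_zero_iff, hπ.maximalIdeal_eq, Ideal.mem_span_singleton]

/-- `red P = 0` iff `P` is divisible by the uniformizer. -/
theorem red_eq_zero_iff (hπ : Irreducible π) (P : LaurentSeries A) :
    red A P = 0 ↔ ∃ P' : LaurentSeries A, P = HahnSeries.C π * P' := by
  constructor
  · intro h
    have hπ0 : (π : K) ≠ 0 := fun h0 => hπ.ne_zero (Subtype.ext h0)
    have hd : ∀ n, π ∣ P.coeff n := fun n => by
      rw [← residue_eq_zero_iff_dvd hπ, ← red_coeff, h, HahnSeries.coeff_zero]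
    have hmem : ∀ n, (algebraMap K (LaurentSeries K) (π : K)⁻¹ * inc A P).coeff n ∈ A := by
      intro n
      obtain ⟨c, hc⟩ := hd n
      rw [coeff_algebraMap_mul, inc_coeff, hc]
      push_cast
      rw [inv_mul_cancel_left₀ hπ0]
      exact c.2
    refine ⟨liftS A _ hmem, ?_⟩
    apply inc_injective A
    rw [map_mul, inc_liftS, inc_C, ← mul_assoc, ← map_mul, mul_inv_cancel₀ hπ0, map_one, one_mul]
  · rintro ⟨P', rfl⟩
    rw [map_mul, red_C, (residue_eq_zero_iff_dvd hπ π).mpr dvd_rfl, map_zero, zero_mul]

/-- Every nonzero integral series is a power of the uniformizer times a series with nonzero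
reduction. -/
theorem exists_pow_mul (hπ : Irreducible π) (P : LaurentSeries A) (hP : P ≠ 0) :
    ∃ (m : ℕ) (P' : LaurentSeries A), P = HahnSeries.C π ^ m * P' ∧ red A P' ≠ 0 := by
  obtain ⟨n, hn⟩ : ∃ n, P.coeff n ≠ 0 := by
    by_contra hcon
    simp only [not_exists, not_not] at hcon
    exact hP (HahnSeries.ext (funext hcon))
  obtain ⟨m, u, hu⟩ := IsDiscreteValuationRing.eq_unit_mul_pow_irreducible hn hπ
  induction m generalizing P u with
  | zero =>
    refine ⟨0, P, by simp, fun h0 => ?_⟩
    have h1 : IsLocalRing.residue A (P.coeff n) = 0 := by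
      rw [← red_coeff, h0, HahnSeries.coeff_zero]
    rw [hu, pow_zero, mul_one, IsLocalRing.residue_eq_zero_iff] at h1
    exact (IsLocalRing.mem_maximalIdeal _).mp h1 u.isUnit
  | succ m ih =>
    by_cases h0 : red A P = 0
    · obtain ⟨P', rfl⟩ := (red_eq_zero_iff hπ P).mp h0
      rw [coeff_C_mul] at hu hn
      have hn' : P'.coeff n ≠ 0 := right_ne_zero_of_mul hn
      have hu' : P'.coeff n = u * π ^ m := by
        apply mul_left_cancel₀ hπ.ne_zero
        rw [hu, pow_succ]
        ring
      obtain ⟨m', P'', h1, h2⟩ := ih P' (right_ne_zero_of_mul hP) hn' u hu'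
      refine ⟨m' + 1, P'', ?_, h2⟩
      rw [h1, pow_succ]
      ring
    · exact ⟨0, P, by simp, h0⟩

end DVR

end Fermat.Agent.S18.Vert

end
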