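/-
KL-A, node (4)-S28 "vertical modular inputs" (owner of this file: helper88).

The Gauss valuation ring of a subfield `F` of `K((q))` all of whose elements are quotients of
series with coefficients in the discrete valuation ring `A` of `K`.
-/
import Fermat.Agent.S18.Vert.IntSeries

set_option autoImplicit false

noncomputable section

namespace Fermat.Agent.S18.Vert

open ModularCurve

variable {K : Type*} [Field K] (A : ValuationSubring K)
variable (F : IntermediateField K (LaurentSeries K))

/-- `f = P / Q` with `P`, `Q` integral series in `F`, `Q` of nonzero reduction. -/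
def IsGaussInt (f : LaurentSeries K) : Prop :=
  ∃ P Q : LaurentSeries A, inc A P ∈ F ∧ inc A Q ∈ F ∧ red A Q ≠ 0 ∧ f * inc A Q = inc A P

/-- The Gauss ring of `F`, as a subring. -/
def gaussSubring : Subring F where
  carrier := {f | IsGaussInt A F (f : LaurentSeries K)}
  mul_mem' := by
    rintro f g ⟨P, Q, hP, hQ, hQ0, h⟩ ⟨P', Q', hP', hQ', hQ0', h'⟩
    refine ⟨P * P', Q * Q', ?_, ?_, ?_, ?_⟩
    · rw [map_mul]; exact mul_mem hP hP'
    · rw [map_mul]; exact mul_mem hQ hQ'
    · rw [map_mul]; exact mul_ne_zero hQ0 hQ0'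
    · rw [map_mul, map_mul, ← h, ← h']
      push_cast
      ring
  one_mem' := ⟨1, 1, by rw [map_one]; exact one_mem F, by rw [map_one]; exact one_mem F,
    by rw [map_one]; exact one_ne_zero, by simp⟩
  add_mem' := by
    rintro f g ⟨P, Q, hP, hQ, hQ0, h⟩ ⟨P', Q', hP', hQ', hQ0', h'⟩
    refine ⟨P * Q' + P' * Q, Q * Q', ?_, ?_, ?_, ?_⟩
    · rw [map_add, map_mul, map_mul]; exact add_mem (mul_mem hP hQ') (mul_mem hP' hQ)
    · rw [map_mul]; exact mul_mem hQ hQ'
    · rw [map_mul]; exact mul_ne_zero hQ0 hQ0'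
    · rw [map_add, map_mul, map_mul, map_mul, ← h, ← h']
      push_cast
      ring
  zero_mem' := ⟨0, 1, by rw [map_zero]; exact zero_mem F, by rw [map_one]; exact one_mem F,
    by rw [map_one]; exact one_ne_zero, by simp⟩
  neg_mem' := by
    rintro f ⟨P, Q, hP, hQ, hQ0, h⟩
    refine ⟨-P, Q, by rw [map_neg]; exact neg_mem hP, hQ, hQ0, ?_⟩
    rw [map_neg, ← h]
    push_cast
    ring

theorem mem_gaussSubring_iff (f : F) :
    f ∈ gaussSubring A F ↔ IsGaussInt A F (f : LaurentSeries K) := Iff.rfl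

/-- Every element of `F` is a quotient of two integral series lying in `F`. -/
def IsQuot : Prop :=
  ∀ f : F, ∃ P Q : LaurentSeries A, inc A P ∈ F ∧ inc A Q ∈ F ∧ Q ≠ 0 ∧
    (f : LaurentSeries K) * inc A Q = inc A P

variable {A F}

theorem C_ne_zero {a : A} (ha : a ≠ 0) : (HahnSeries.C a : LaurentSeries A) ≠ 0 := by
  intro h
  apply ha
  have := congrArg (fun x => HahnSeries.coeff x 0) h
  simpa using this

theorem inc_C_mem (a : A) : inc A (HahnSeries.C a) ∈ F := by
  rw [inc_C]; exact F.algebraMap_mem _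

section DVR

variable [IsDiscreteValuationRing A] {π : A}

/-- If `C π ^ m * P'` lies in `F` then so does `P'`. -/
theorem inc_mem_of_pow_mul (hπ : Irreducible π) {m : ℕ} {P' : LaurentSeries A}
    (h : inc A (HahnSeries.C π ^ m * P') ∈ F) : inc A P' ∈ F := by
  have h0 : inc A (HahnSeries.C π ^ m) ≠ 0 := by
    rw [Ne, inc_eq_zero_iff]
    exact pow_ne_zero _ (C_ne_zero hπ.ne_zero)
  have h1 : inc A (HahnSeries.C π ^ m) ∈ F := by
    rw [map_pow]; exact pow_mem (inc_C_mem π) m
  have h2 : inc A P' = (inc A (HahnSeries.C π ^ m))⁻¹ * inc A (HahnSeries.C π ^ m * P') := by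
    rw [map_mul, inv_mul_cancel_left₀ h0]
  rw [h2]
  exact mul_mem (inv_mem h1) h

/-- Normal form: every nonzero element of `F` is `π ^ a / π ^ b * (P / Q)` with `P`, `Q` of nonzero
reduction. -/
theorem IsQuot.exists_normal (hq : IsQuot A F) (hπ : Irreducible π) (f : F) (hf : f ≠ 0) :
    ∃ (a b : ℕ) (P Q : LaurentSeries A), inc A P ∈ F ∧ inc A Q ∈ F ∧ red A P ≠ 0 ∧ red A Q ≠ 0 ∧
      (f : LaurentSeries K) * (inc A (HahnSeries.C π) ^ b * inc A Q) =
        inc A (HahnSeries.C π) ^ a * inc A P := by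
  obtain ⟨P, Q, hP, hQ, hQ0, h⟩ := hq f
  have hP0 : P ≠ 0 := by
    rintro rfl
    rw [map_zero] at h
    rcases mul_eq_zero.mp h with h1 | h1
    · exact hf (Subtype.ext h1)
    · exact hQ0 ((inc_eq_zero_iff A).mp h1)
  obtain ⟨a, P', rfl, hP'⟩ := exists_pow_mul hπ P hP0
  obtain ⟨b, Q', rfl, hQ'⟩ := exists_pow_mul hπ Q hQ0
  refine ⟨a, b, P', Q', inc_mem_of_pow_mul hπ hP, inc_mem_of_pow_mul hπ hQ, hP', hQ', ?_⟩
  rw [map_mul, map_mul, map_pow, map_pow] at h
  exact h

end DVR

variable (A F) in
/-- The Gauss valuation ring of `F`. -/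
def gaussVal [IsDiscreteValuationRing A] (hq : IsQuot A F) : ValuationSubring F :=
  { gaussSubring A F with
    mem_or_inv_mem' := by
      intro f
      by_cases hf : f = 0
      · left; rw [hf]; exact (gaussSubring A F).zero_mem
      obtain ⟨π, hπ⟩ := IsDiscreteValuationRing.exists_irreducible A
      obtain ⟨a, b, P, Q, hP, hQ, hP0, hQ0, h⟩ := hq.exists_normal hπ f hf
      have hc0 : inc A (HahnSeries.C π) ≠ 0 := by
        rw [Ne, inc_eq_zero_iff]
        exact C_ne_zero hπ.ne_zero
      rcases le_total b a with hab | hab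
      · left
        obtain ⟨c, rfl⟩ := Nat.exists_eq_add_of_le hab
        refine ⟨HahnSeries.C π ^ c * P, Q, ?_, hQ, hQ0, ?_⟩
        · rw [map_mul, map_pow]; exact mul_mem (pow_mem (inc_C_mem π) c) hP
        · apply mul_left_cancel₀ (pow_ne_zero b hc0)
          rw [map_mul, map_pow]
          calc inc A (HahnSeries.C π) ^ b * ((f : LaurentSeries K) * inc A Q)
              = (f : LaurentSeries K) * (inc A (HahnSeries.C π) ^ b * inc A Q) := by ring
            _ = inc A (HahnSeries.C π) ^ (b + c) * inc A P := h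
            _ = _ := by rw [pow_add]; ring
      · right
        obtain ⟨c, rfl⟩ := Nat.exists_eq_add_of_le hab
        have hf' : (f : LaurentSeries K) ≠ 0 := fun h0 => hf (Subtype.ext h0)
        refine ⟨HahnSeries.C π ^ c * Q, P, ?_, hP, hP0, ?_⟩
        · rw [map_mul, map_pow]; exact mul_mem (pow_mem (inc_C_mem π) c) hQ
        · apply mul_left_cancel₀ (pow_ne_zero a hc0)
          apply mul_left_cancel₀ hf'
          rw [map_mul, map_pow]
          push_cast
          calc (f : LaurentSeries K) * (inc A (HahnSeries.C π) ^ a *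
                ((f : LaurentSeries K)⁻¹ * inc A P))
              = ((f : LaurentSeries K) * (f : LaurentSeries K)⁻¹) *
                  (inc A (HahnSeries.C π) ^ a * inc A P) := by ring
            _ = inc A (HahnSeries.C π) ^ a * inc A P := by rw [mul_inv_cancel₀ hf', one_mul]
            _ = (f : LaurentSeries K) * (inc A (HahnSeries.C π) ^ (a + c) * inc A Q) := h.symm
            _ = _ := by rw [pow_add]; ring }

theorem mem_gaussVal_iff [IsDiscreteValuationRing A] (hq : IsQuot A F) (f : F) :
    f ∈ gaussVal A F hq ↔ IsGaussInt A F (f : LaurentSeries K) := Iff.rfl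

end Fermat.Agent.S18.Vert

end
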