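/-
KL-A, node (4)-S28 "vertical modular inputs".

The residue map of the Gauss valuation ring into `k((q))`; the Gauss valuation ring is a discrete
valuation ring with the same uniformizer as `A`.
-/
import Fermat.Agent.S18.Vert.Gauss

set_option autoImplicit false

noncomputable section

namespace Fermat.Agent.S18.Vert

open ModularCurve

variable {K : Type*} [Field K] {A : ValuationSubring K} [IsDiscreteValuationRing A]
variable {F : IntermediateField K (LaurentSeries K)} (hq : IsQuot A F)

/-- An integral series lying in `F` belongs to the Gauss ring. -/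
theorem inc_mem_gaussVal (P : LaurentSeries A) (hP : inc A P ∈ F) :
    (⟨inc A P, hP⟩ : F) ∈ gaussVal A F hq :=
  ⟨P, 1, hP, by rw [map_one]; exact one_mem F, by rw [map_one]; exact one_ne_zero, by simp⟩

/-- Integral series lying in `F`, as elements of the Gauss ring. -/
def gaussMk (P : LaurentSeries A) (hP : inc A P ∈ F) : gaussVal A F hq :=
  ⟨⟨inc A P, hP⟩, inc_mem_gaussVal hq P hP⟩

/-- Constants of `A`, as elements of the Gauss ring. -/
def gaussC : A →+* gaussVal A F hq where
  toFun a := gaussMk hq (HahnSeries.C a) (inc_C_mem a)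
  map_one' := by
    apply Subtype.ext; apply Subtype.ext
    change inc A (HahnSeries.C 1) = 1
    rw [map_one, map_one]
  map_mul' a b := by
    apply Subtype.ext; apply Subtype.ext
    change inc A (HahnSeries.C (a * b)) = inc A (HahnSeries.C a) * inc A (HahnSeries.C b)
    rw [map_mul, map_mul]
  map_zero' := by
    apply Subtype.ext; apply Subtype.ext
    change inc A (HahnSeries.C 0) = 0
    rw [map_zero, map_zero]
  map_add' a b := by
    apply Subtype.ext; apply Subtype.ext
    change inc A (HahnSeries.C (a + b)) = inc A (HahnSeries.C a) + inc A (HahnSeries.C b)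
    rw [map_add, map_add]

theorem coe_gaussC (a : A) : ((gaussC hq a : F) : LaurentSeries K) =
    algebraMap K (LaurentSeries K) (a : K) := inc_C A a

theorem coe_gaussC' (a : A) : (gaussC hq a : F) = algebraMap K F (a : K) :=
  Subtype.ext (coe_gaussC hq a)

omit [IsDiscreteValuationRing ↥A] in
/-- `Q ≠ 0` in `K((q))` if its reduction is nonzero. -/
theorem inc_ne_zero_of_red_ne_zero {Q : LaurentSeries A} (hQ : red A Q ≠ 0) : inc A Q ≠ 0 := by
  rw [Ne, inc_eq_zero_iff]
  rintro rfl
  exact hQ (map_zero _)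

omit [IsDiscreteValuationRing ↥A] in
/-- Two presentations of the same series have the same reduction. -/
theorem red_mul_eq_red_mul {f : LaurentSeries K} {P Q P' Q' : LaurentSeries A}
    (h : f * inc A Q = inc A P) (h' : f * inc A Q' = inc A P') :
    red A P * red A Q' = red A P' * red A Q := by
  have h1 : inc A (P * Q') = inc A (P' * Q) := by
    rw [map_mul, map_mul, ← h, ← h']
    ring
  rw [← map_mul, ← map_mul, inc_injective A h1]

/-- The quotient `P / Q` as an element of the Gauss ring. -/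
def gaussQuot (P Q : LaurentSeries A) (hP : inc A P ∈ F) (hQ : inc A Q ∈ F) (hQ0 : red A Q ≠ 0) :
    gaussVal A F hq :=
  ⟨(⟨inc A P, hP⟩ : F) / ⟨inc A Q, hQ⟩, ⟨P, Q, hP, hQ, hQ0, by
    push_cast
    exact div_mul_cancel₀ _ (inc_ne_zero_of_red_ne_zero hQ0)⟩⟩

theorem coe_gaussQuot (P Q : LaurentSeries A) (hP : inc A P ∈ F) (hQ : inc A Q ∈ F)
    (hQ0 : red A Q ≠ 0) :
    (gaussQuot hq P Q hP hQ hQ0 : F) = (⟨inc A P, hP⟩ : F) / ⟨inc A Q, hQ⟩ := rfl

theorem coe_gaussQuot_mul (P Q : LaurentSeries A) (hP : inc A P ∈ F) (hQ : inc A Q ∈ F)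
    (hQ0 : red A Q ≠ 0) :
    ((gaussQuot hq P Q hP hQ hQ0 : F) : LaurentSeries K) * inc A Q = inc A P := by
  rw [coe_gaussQuot]
  push_cast
  exact div_mul_cancel₀ _ (inc_ne_zero_of_red_ne_zero hQ0)

/-- An element of the Gauss ring is determined by a presentation. -/
theorem eq_of_mul_inc_eq {f g : gaussVal A F hq} {Q : LaurentSeries A} (hQ0 : red A Q ≠ 0)
    (h : ((f : F) : LaurentSeries K) * inc A Q = ((g : F) : LaurentSeries K) * inc A Q) : f = g :=
  Subtype.ext (Subtype.ext (mul_right_cancel₀ (inc_ne_zero_of_red_ne_zero hQ0) h))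

/-- Existence of the residue map. -/
theorem exists_gaussRes :
    ∃ ρ : gaussVal A F hq →+* LaurentSeries (IsLocalRing.ResidueField A),
      ∀ (f : gaussVal A F hq) (P Q : LaurentSeries A), red A Q ≠ 0 →
        ((f : F) : LaurentSeries K) * inc A Q = inc A P → ρ f * red A Q = red A P := by
  classical
  -- chosen presentations
  have hex : ∀ f : gaussVal A F hq, ∃ PQ : LaurentSeries A × LaurentSeries A,
      red A PQ.2 ≠ 0 ∧ ((f : F) : LaurentSeries K) * inc A PQ.2 = inc A PQ.1 := by
    rintro ⟨f, P, Q, -, -, hQ0, h⟩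
    exact ⟨(P, Q), hQ0, h⟩
  choose c hc0 hc using hex
  let r : gaussVal A F hq → LaurentSeries (IsLocalRing.ResidueField A) :=
    fun f => red A (c f).1 / red A (c f).2
  have hr : ∀ (f : gaussVal A F hq) (P Q : LaurentSeries A), red A Q ≠ 0 →
      ((f : F) : LaurentSeries K) * inc A Q = inc A P → r f * red A Q = red A P := by
    intro f P Q hQ0 h
    have h1 := red_mul_eq_red_mul (hc f) h
    show red A (c f).1 / red A (c f).2 * red A Q = red A P
    rw [div_mul_eq_mul_div, h1, mul_div_assoc, div_self (hc0 f), mul_one]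
  refine ⟨{ toFun := r, map_one' := ?_, map_mul' := ?_, map_zero' := ?_, map_add' := ?_ }, hr⟩
  · have := hr 1 1 1 (by rw [map_one]; exact one_ne_zero) (by simp)
    rwa [map_one, mul_one] at this
  · intro f g
    have h1 := hr (f * g) ((c f).1 * (c g).1) ((c f).2 * (c g).2)
      (by rw [map_mul]; exact mul_ne_zero (hc0 f) (hc0 g)) (by
        rw [map_mul, map_mul, ← hc f, ← hc g]
        push_cast
        ring)
    have h2 := hr f _ _ (hc0 f) (hc f)
    have h3 := hr g _ _ (hc0 g) (hc g)
    apply mul_right_cancel₀ (mul_ne_zero (hc0 f) (hc0 g))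
    rw [map_mul, map_mul] at h1
    rw [h1, ← h2, ← h3]
    ring
  · have := hr 0 0 1 (by rw [map_one]; exact one_ne_zero) (by simp)
    rwa [map_one, mul_one, map_zero] at this
  · intro f g
    have h1 := hr (f + g) ((c f).1 * (c g).2 + (c g).1 * (c f).2) ((c f).2 * (c g).2)
      (by rw [map_mul]; exact mul_ne_zero (hc0 f) (hc0 g)) (by
        rw [map_add, map_mul, map_mul, map_mul, ← hc f, ← hc g]
        push_cast
        ring)
    have h2 := hr f _ _ (hc0 f) (hc f)
    have h3 := hr g _ _ (hc0 g) (hc g)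
    apply mul_right_cancel₀ (mul_ne_zero (hc0 f) (hc0 g))
    rw [map_add, map_mul, map_mul, map_mul] at h1
    rw [h1, ← h2, ← h3]
    ring

/-- The residue map of the Gauss valuation ring, with values in `k((q))`. -/
def gaussRes : gaussVal A F hq →+* LaurentSeries (IsLocalRing.ResidueField A) :=
  (exists_gaussRes hq).choose

theorem gaussRes_spec (f : gaussVal A F hq) {P Q : LaurentSeries A} (hQ : red A Q ≠ 0)
    (h : ((f : F) : LaurentSeries K) * inc A Q = inc A P) :
    gaussRes hq f * red A Q = red A P :=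
  (exists_gaussRes hq).choose_spec f P Q hQ h

theorem gaussRes_gaussMk (P : LaurentSeries A) (hP : inc A P ∈ F) :
    gaussRes hq (gaussMk hq P hP) = red A P := by
  have := gaussRes_spec hq (gaussMk hq P hP) (P := P) (Q := 1)
    (by rw [map_one]; exact one_ne_zero) (by simp [gaussMk])
  rwa [map_one, mul_one] at this

theorem gaussRes_gaussC (a : A) :
    gaussRes hq (gaussC hq a) = HahnSeries.C (IsLocalRing.residue A a) := by
  rw [← red_C]; exact gaussRes_gaussMk hq _ _

variable {π : A}

/-- The kernel of the residue map is generated by the uniformizer of `A`. -/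
theorem gaussRes_eq_zero_iff (hπ : Irreducible π) (f : gaussVal A F hq) :
    gaussRes hq f = 0 ↔ gaussC hq π ∣ f := by
  constructor
  · intro h0
    obtain ⟨P, Q, hP, hQ, hQ0, h⟩ := f.2
    have h1 := gaussRes_spec hq f hQ0 h
    rw [h0, zero_mul] at h1
    obtain ⟨P', rfl⟩ := (red_eq_zero_iff hπ P).mp h1.symm
    have hP' : inc A P' ∈ F := inc_mem_of_pow_mul hπ (m := 1) (by rwa [pow_one])
    refine ⟨gaussQuot hq P' Q hP' hQ hQ0, eq_of_mul_inc_eq hq hQ0 ?_⟩
    rw [h, map_mul]
    push_cast
    rw [mul_assoc, coe_gaussQuot_mul]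
    rfl
  · rintro ⟨g, rfl⟩
    rw [map_mul, gaussRes_gaussC, (residue_eq_zero_iff_dvd hπ π).mpr dvd_rfl, map_zero, zero_mul]

theorem isUnit_iff_gaussRes_ne_zero (f : gaussVal A F hq) : IsUnit f ↔ gaussRes hq f ≠ 0 := by
  constructor
  · intro h
    exact (h.map (gaussRes hq)).ne_zero
  · intro h0
    obtain ⟨P, Q, hP, hQ, hQ0, h⟩ := f.2
    have h1 := gaussRes_spec hq f hQ0 h
    have hP0 : red A P ≠ 0 := by
      rw [← h1]
      exact mul_ne_zero h0 hQ0
    refine IsUnit.of_mul_eq_one (gaussQuot hq Q P hQ hP hP0) (eq_of_mul_inc_eq hq hP0 ?_)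
    push_cast
    rw [mul_assoc, coe_gaussQuot_mul, h, one_mul]

theorem gaussRes_eq_zero_iff_mem (f : gaussVal A F hq) :
    gaussRes hq f = 0 ↔ f ∈ IsLocalRing.maximalIdeal (gaussVal A F hq) := by
  rw [IsLocalRing.mem_maximalIdeal, mem_nonunits_iff, isUnit_iff_gaussRes_ne_zero hq, not_not]

theorem gaussC_ne_zero (hπ : Irreducible π) : gaussC hq π ≠ 0 := by
  intro h
  have h1 : (gaussC hq π : F) = 0 := by rw [h]; rfl
  rw [coe_gaussC', map_eq_zero] at h1
  exact hπ.ne_zero (Subtype.ext h1)

theorem gaussRes_gaussC_irreducible (hπ : Irreducible π) : gaussRes hq (gaussC hq π) = 0 :=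
  (gaussRes_eq_zero_iff hq hπ _).mpr dvd_rfl

theorem irreducible_gaussC (hπ : Irreducible π) : Irreducible (gaussC hq π) := by
  have h0 := gaussC_ne_zero hq hπ
  have hres := gaussRes_gaussC_irreducible hq hπ
  refine ⟨fun hu => (isUnit_iff_gaussRes_ne_zero hq _).mp hu hres, fun a b hab => ?_⟩
  have h1 : gaussRes hq a * gaussRes hq b = 0 := by rw [← map_mul, ← hab, hres]
  rcases mul_eq_zero.mp h1 with ha | hb
  · right
    obtain ⟨c, rfl⟩ := (gaussRes_eq_zero_iff hq hπ a).mp ha
    have h2 : gaussC hq π * 1 = gaussC hq π * (b * c) := by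
      rw [mul_one]
      calc gaussC hq π = gaussC hq π * c * b := hab
        _ = gaussC hq π * (b * c) := by ring
    exact IsUnit.of_mul_eq_one c (mul_left_cancel₀ h0 h2).symm
  · left
    obtain ⟨c, rfl⟩ := (gaussRes_eq_zero_iff hq hπ b).mp hb
    have h2 : gaussC hq π * 1 = gaussC hq π * (a * c) := by
      rw [mul_one]
      calc gaussC hq π = a * (gaussC hq π * c) := hab
        _ = gaussC hq π * (a * c) := by ring
    exact IsUnit.of_mul_eq_one c (mul_left_cancel₀ h0 h2).symm

/-- Every nonzero element of the Gauss ring is a unit times a power of `π`. -/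
theorem exists_unit_mul_pow (hπ : Irreducible π) (f : gaussVal A F hq) (hf : f ≠ 0) :
    ∃ (m : ℕ) (u : (gaussVal A F hq)ˣ), f = u * gaussC hq π ^ m := by
  have hf' : (f : F) ≠ 0 := fun h => hf (Subtype.ext h)
  obtain ⟨a, b, P, Q, hP, hQ, hP0, hQ0, h⟩ := hq.exists_normal hπ (f : F) hf'
  set u0 := gaussQuot hq P Q hP hQ hQ0 with hu0
  have hu0res : gaussRes hq u0 ≠ 0 := by
    intro h0
    have h1 := gaussRes_spec hq u0 hQ0 (coe_gaussQuot_mul hq P Q hP hQ hQ0)
    rw [h0, zero_mul] at h1
    exact hP0 h1.symm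
  have hunit : IsUnit u0 := (isUnit_iff_gaussRes_ne_zero hq u0).mpr hu0res
  -- the relation inside the Gauss ring
  have hrel : f * gaussC hq π ^ b = gaussC hq π ^ a * u0 := by
    apply eq_of_mul_inc_eq hq hQ0
    push_cast
    rw [mul_assoc (_ ^ a), coe_gaussQuot_mul, mul_assoc]
    exact h
  have h0 := gaussC_ne_zero hq hπ
  rcases le_total b a with hab | hab
  · obtain ⟨c, rfl⟩ := Nat.exists_eq_add_of_le hab
    refine ⟨c, hunit.unit, ?_⟩
    apply mul_right_cancel₀ (pow_ne_zero b h0)
    rw [hrel, IsUnit.unit_spec, pow_add]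
    ring
  · obtain ⟨c, rfl⟩ := Nat.exists_eq_add_of_le hab
    have h2 : f * gaussC hq π ^ c = u0 := by
      apply mul_right_cancel₀ (pow_ne_zero a h0)
      calc f * gaussC hq π ^ c * gaussC hq π ^ a = f * gaussC hq π ^ (a + c) := by
            rw [pow_add]; ring
        _ = gaussC hq π ^ a * u0 := hrel
        _ = u0 * gaussC hq π ^ a := mul_comm _ _
    rcases Nat.eq_zero_or_pos c with rfl | hc
    · refine ⟨0, hunit.unit, ?_⟩
      rw [IsUnit.unit_spec, ← h2, pow_zero, mul_one, mul_one]
    · exfalso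
      apply hu0res
      rw [← h2, map_mul, map_pow, gaussRes_gaussC_irreducible hq hπ, zero_pow hc.ne', mul_zero]

theorem isDiscreteValuationRing_gaussVal : IsDiscreteValuationRing (gaussVal A F hq) := by
  obtain ⟨π, hπ⟩ := IsDiscreteValuationRing.exists_irreducible A
  refine IsDiscreteValuationRing.ofHasUnitMulPowIrreducibleFactorization
    ⟨gaussC hq π, irreducible_gaussC hq hπ, fun {x} hx => ?_⟩
  obtain ⟨m, u, rfl⟩ := exists_unit_mul_pow hq hπ x hx
  exact ⟨m, u, mul_comm _ _⟩

/-- The translation of the hypothesis of `GAL.KL`: if `P`, `Q` are integral series in `F` with the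
same nonzero reduction, then `P / Q - 1` lies in the maximal ideal of the Gauss ring. -/
theorem div_sub_one_mem (hπ : Irreducible π) (P Q : LaurentSeries A) (hP : inc A P ∈ F)
    (hQ : inc A Q ∈ F) (hPQ : red A P = red A Q) (hQ0 : red A Q ≠ 0) :
    ∃ g : gaussVal A F hq,
      (⟨inc A P, hP⟩ : F) / ⟨inc A Q, hQ⟩ - 1 = algebraMap K F (π : K) * (g : F) := by
  have h0 : red A (P - Q) = 0 := by rw [map_sub, hPQ, sub_self]
  obtain ⟨R, hR⟩ := (red_eq_zero_iff hπ (P - Q)).mp h0
  have hR' : inc A R ∈ F := inc_mem_of_pow_mul hπ (m := 1) (by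
    rw [pow_one, ← hR, map_sub]
    exact sub_mem hP hQ)
  refine ⟨gaussQuot hq R Q hR' hQ hQ0, ?_⟩
  have hQne : (⟨inc A Q, hQ⟩ : F) ≠ 0 := fun h =>
    inc_ne_zero_of_red_ne_zero hQ0 (congrArg Subtype.val h)
  rw [coe_gaussQuot, div_sub_one hQne, mul_div_assoc']
  congr 1
  apply Subtype.ext
  push_cast
  rw [← map_sub, hR, map_mul, inc_C]

end Fermat.Agent.S18.Vert

end
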