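/-
KL-A, node (4)-S28 "vertical modular inputs" (owner of this file: helper88).

Abstract lemmas on traces and valuation rings (Mathlib only):
* Euler: `Tr (x ^ (n - 1) / f'(x)) = 1`;
* the trace of an element integral over `V ∩ E` lies in `V ∩ E`;
* descent of a "trace-one element" along a tower `E₁ ⊆ E₂ ⊆ E₃ ⊆ E₄`.
-/
import Mathlib

set_option autoImplicit false
set_option linter.style.haveILetI false

noncomputable section

namespace Fermat.Agent.S18.Vert

open Polynomial

/-- **Euler**: `Tr (x ^ (n - 1) / f'(x)) = 1` for a power basis `1, x, …, x ^ (n - 1)`. -/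
theorem trace_pow_div_derivative {K L : Type*} [Field K] [Field L] [Algebra K L]
    [FiniteDimensional K L] [Algebra.IsSeparable K L] (pb : PowerBasis K L) :
    Algebra.trace K L (pb.gen ^ (pb.dim - 1) / aeval pb.gen (derivative (minpoly K pb.gen))) = 1 := by
  have hdim : 0 < pb.dim := pb.dim_pos
  let i : Fin pb.dim := ⟨pb.dim - 1, by omega⟩
  have h1 := Module.Basis.trace_traceDual_mul (K := K) (L := L) pb.basis i i
  rw [if_pos rfl, Module.Basis.traceDual_powerBasis_eq, PowerBasis.coe_basis] at h1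
  have hint : IsIntegral K pb.gen := pb.isIntegral_gen
  have h2 : (minpolyDiv K pb.gen).coeff (i : ℕ) = 1 := by
    have h3 : (minpolyDiv K pb.gen).natDegree = pb.dim - 1 := by
      rw [natDegree_minpolyDiv, pb.natDegree_minpoly]
    have h4 := (minpolyDiv_monic hint).coeff_natDegree
    rwa [h3] at h4
  rw [h2] at h1
  rw [← h1]
  congr 1
  rw [div_mul_eq_mul_div, one_mul]

/-- The trace of an element integral over `V ∩ E` lies in `V ∩ E`. -/
theorem trace_mem_comap {E F : Type*} [Field E] [Field F] [Algebra E F] [FiniteDimensional E F]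
    (V : ValuationSubring F) (y : F)
    (hy : ((algebraMap E F).comp (V.comap (algebraMap E F)).subtype).IsIntegralElem y) :
    algebraMap E F (Algebra.trace E F y) ∈ V := by
  let W : ValuationSubring E := V.comap (algebraMap E F)
  letI : Algebra W F := ((algebraMap E F).comp W.subtype).toAlgebra
  haveI : IsScalarTower W E F := IsScalarTower.of_algebraMap_eq fun _ => rfl
  have h1 : IsIntegral W y := hy
  have h2 : IsIntegral W (Algebra.trace E F y) := Algebra.isIntegral_trace h1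
  obtain ⟨a, ha⟩ := IsIntegrallyClosed.isIntegral_iff.mp h2
  rw [← ha]
  exact a.2

/-- Integrality over `V ∩ E₁` implies integrality over `V ∩ E₂` for `E₁ ⊆ E₂ ⊆ F`. -/
theorem isIntegralElem_comap_of_tower {E₁ E₂ F : Type*} [Field E₁] [Field E₂] [Field F]
    [Algebra E₁ E₂] [Algebra E₂ F] [Algebra E₁ F] [IsScalarTower E₁ E₂ F]
    (V : ValuationSubring F) (y : F)
    (hy : ((algebraMap E₁ F).comp (V.comap (algebraMap E₁ F)).subtype).IsIntegralElem y) :
    ((algebraMap E₂ F).comp (V.comap (algebraMap E₂ F)).subtype).IsIntegralElem y := by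
  obtain ⟨p, hp, hpy⟩ := hy
  let θ : V.comap (algebraMap E₁ F) →+* V.comap (algebraMap E₂ F) :=
    { toFun := fun a => ⟨algebraMap E₁ E₂ a, by
        have h := a.2
        rw [ValuationSubring.mem_comap] at h ⊢
        rwa [← IsScalarTower.algebraMap_apply]⟩
      map_one' := by ext1; simp
      map_mul' := fun a b => by ext1; simp
      map_zero' := by ext1; simp
      map_add' := fun a b => by ext1; simp }
  refine ⟨p.map θ, hp.map θ, ?_⟩
  rw [eval₂_map]
  have hcomp : ((algebraMap E₂ F).comp (V.comap (algebraMap E₂ F)).subtype).comp θ =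
      (algebraMap E₁ F).comp (V.comap (algebraMap E₁ F)).subtype := by
    ext a
    exact (IsScalarTower.algebraMap_apply E₁ E₂ F _).symm
  rw [hcomp]
  exact hpy

/-- Integrality descends to an intermediate field: if `algebraMap E₂ F y` is integral over
`V ∩ E₁` then `y` is integral over `(V ∩ E₂) ∩ E₁`. -/
theorem isIntegralElem_comap_of_algebraMap {E₁ E₂ F : Type*} [Field E₁] [Field E₂] [Field F]
    [Algebra E₁ E₂] [Algebra E₂ F] [Algebra E₁ F] [IsScalarTower E₁ E₂ F]
    (V : ValuationSubring F) (y : E₂)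
    (hy : ((algebraMap E₁ F).comp (V.comap (algebraMap E₁ F)).subtype).IsIntegralElem
      (algebraMap E₂ F y)) :
    ((algebraMap E₁ E₂).comp
      ((V.comap (algebraMap E₂ F)).comap (algebraMap E₁ E₂)).subtype).IsIntegralElem y := by
  obtain ⟨p, hp, hpy⟩ := hy
  let θ : V.comap (algebraMap E₁ F) →+* (V.comap (algebraMap E₂ F)).comap (algebraMap E₁ E₂) :=
    { toFun := fun a => ⟨a, by
        have h := a.2
        rw [ValuationSubring.mem_comap] at h
        rw [ValuationSubring.mem_comap, ValuationSubring.mem_comap]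
        rwa [← IsScalarTower.algebraMap_apply]⟩
      map_one' := rfl
      map_mul' := fun a b => rfl
      map_zero' := rfl
      map_add' := fun a b => rfl }
  refine ⟨p.map θ, hp.map θ, ?_⟩
  apply (algebraMap E₂ F).injective
  rw [eval₂_map, hom_eval₂, map_zero, ← hpy]
  congr 1
  ext a
  exact (IsScalarTower.algebraMap_apply E₁ E₂ F _).symm

/-- **Descent of a trace-one element** along `E₁ ⊆ E₂ ⊆ E₃ ⊆ E₄`.  `V` a valuation ring of `E₄`
integral over `V ∩ E₁`, `ϖ ∈ E₁` a non-unit of `V`, `y₀ ∈ V` with `Tr_{E₄/E₁} y₀ = 1`.  Then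
`y₁ = Tr_{E₄/E₃} y₀` lies in `V` and `Tr_{E₃/E₂} y₁ ∉ ϖ V`. -/
theorem exists_trace_not_mem {E₁ E₂ E₃ E₄ : Type*} [Field E₁] [Field E₂] [Field E₃] [Field E₄]
    [Algebra E₁ E₂] [Algebra E₁ E₃] [Algebra E₁ E₄] [Algebra E₂ E₃] [Algebra E₂ E₄] [Algebra E₃ E₄]
    [IsScalarTower E₁ E₂ E₃] [IsScalarTower E₁ E₂ E₄] [IsScalarTower E₁ E₃ E₄]
    [IsScalarTower E₂ E₃ E₄] [FiniteDimensional E₁ E₄]
    (V : ValuationSubring E₄)
    (hint : ∀ y ∈ V,
      ((algebraMap E₁ E₄).comp (V.comap (algebraMap E₁ E₄)).subtype).IsIntegralElem y)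
    (ϖ : E₁) (hϖ : (algebraMap E₁ E₄ ϖ)⁻¹ ∉ V)
    (y₀ : E₄) (hy₀ : y₀ ∈ V) (htr : Algebra.trace E₁ E₄ y₀ = 1) :
    ∃ y₁ : E₃, algebraMap E₃ E₄ y₁ ∈ V ∧
      ¬ ∃ w ∈ V, algebraMap E₂ E₄ (Algebra.trace E₂ E₃ y₁) = algebraMap E₁ E₄ ϖ * w := by
  haveI : FiniteDimensional E₁ E₃ :=
    FiniteDimensional.of_injective (IsScalarTower.toAlgHom E₁ E₃ E₄).toLinearMap
      (algebraMap E₃ E₄).injective
  haveI : FiniteDimensional E₁ E₂ :=
    FiniteDimensional.of_injective (IsScalarTower.toAlgHom E₁ E₂ E₄).toLinearMap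
      (algebraMap E₂ E₄).injective
  haveI : FiniteDimensional E₃ E₄ := FiniteDimensional.right E₁ E₃ E₄
  haveI : FiniteDimensional E₂ E₃ := FiniteDimensional.right E₁ E₂ E₃
  have hϖ0 : ϖ ≠ 0 := by
    rintro rfl
    apply hϖ
    rw [map_zero, inv_zero]
    exact V.zero_mem
  refine ⟨Algebra.trace E₃ E₄ y₀,
    trace_mem_comap V y₀ (isIntegralElem_comap_of_tower V y₀ (hint y₀ hy₀)), ?_⟩
  rintro ⟨w, hw, hwt⟩
  set t : E₂ := Algebra.trace E₂ E₃ (Algebra.trace E₃ E₄ y₀) with ht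
  -- `w` comes from `E₂`
  set w₂ : E₂ := (algebraMap E₁ E₂ ϖ)⁻¹ * t with hw₂
  have hϖ2 : algebraMap E₁ E₂ ϖ ≠ 0 := (_root_.map_ne_zero _).mpr hϖ0
  have hϖ4 : algebraMap E₁ E₄ ϖ ≠ 0 := (_root_.map_ne_zero _).mpr hϖ0
  have hw₂' : algebraMap E₂ E₄ w₂ = w := by
    rw [hw₂, map_mul, map_inv₀, ← IsScalarTower.algebraMap_apply, hwt, inv_mul_cancel_left₀ hϖ4]
  have htw : t = ϖ • w₂ := by
    rw [Algebra.smul_def, hw₂, mul_inv_cancel_left₀ hϖ2]
  have h1 : Algebra.trace E₁ E₂ t = 1 := by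
    rw [ht, Algebra.trace_trace, Algebra.trace_trace, htr]
  have h2 : algebraMap E₁ E₂ (Algebra.trace E₁ E₂ w₂) ∈ V.comap (algebraMap E₂ E₄) := by
    refine trace_mem_comap (V.comap (algebraMap E₂ E₄)) w₂ ?_
    refine isIntegralElem_comap_of_algebraMap V w₂ ?_
    rw [hw₂']
    exact hint w hw
  rw [htw, map_smul, smul_eq_mul] at h1
  apply hϖ
  have h3 : (algebraMap E₁ E₄ ϖ)⁻¹ = algebraMap E₂ E₄ (algebraMap E₁ E₂ (Algebra.trace E₁ E₂ w₂)) := by
    rw [← IsScalarTower.algebraMap_apply, ← map_inv₀]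
    congr 1
    exact inv_eq_of_mul_eq_one_right h1
  rw [h3]
  exact h2

end Fermat.Agent.S18.Vert

end
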