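/-
KL-A, node (4)-S28 "vertical modular inputs" (owner of this file: helper88).

Base change of the S28 datum `UData N ℓ` to an arbitrary coefficient ring, and the
`q`-expansion principle over `A[j]` for a discrete valuation ring `A` over `ℓ`.
-/
import Fermat.Agent.S18.Vert.IntSeries
import Fermat.Agent.S28.QEPFin
import Fermat.Prelude.Def_FLTPrelim_Ramification

set_option autoImplicit false
set_option linter.unusedSectionVars false

noncomputable section

namespace Fermat.Agent.S18.Vert

open ModularCurve Polynomial Fermat.Agent.S28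

/-! ### Base change of `UData` -/

section BaseChange

variable {N ℓ : ℕ} [Fact ℓ.Prime] (D : UData N ℓ) {S : Type*} [CommRing S] (f : Zl ℓ →+* S)

/-- The polynomial `χ` over `S`. -/
def chiS : S[X][X] := D.χ.map (Polynomial.mapRingHom f)

/-- The series `u` over `S`. -/
def uS : LaurentSeries S := coeffMap f D.uZ

theorem chiS_monic : (chiS D f).Monic := D.monic.map _

theorem chiS_natDegree [Nontrivial S] : (chiS D f).natDegree = D.n := by
  rw [chiS, D.monic.natDegree_map, D.natDegree_eq]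

theorem chiS_coeff (i : ℕ) : (chiS D f).coeff i = (D.χ.coeff i).map f := by
  rw [chiS, coeff_map, coe_mapRingHom]

/-- Functoriality of evaluation at `(j, v)`. -/
theorem coeffMap_eval₂_evalJ {S S' : Type*} [CommRing S] [CommRing S'] (g : S →+* S')
    (Q : S[X][X]) (v : LaurentSeries S) :
    coeffMap g (Q.eval₂ (evalJ S) v) =
      (Q.map (Polynomial.mapRingHom g)).eval₂ (evalJ S') (coeffMap g v) := by
  rw [hom_eval₂, eval₂_map]
  congr 1
  exact RingHom.ext fun P => coeffMap_evalJ _ P

theorem eval₂_uZ_eq_zero : D.χ.eval₂ (evalJ (Zl ℓ)) D.uZ = 0 := by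
  have h : toQ ℓ (D.χ.eval₂ (evalJ (Zl ℓ)) D.uZ) = 0 := by
    rw [← D.eval₂_eq_toQ, D.eval_eq_zero]
  exact (map_eq_zero_iff _ (toQ_injective ℓ)).mp h

theorem chiS_eval : (chiS D f).eval₂ (evalJ S) (uS D f) = 0 := by
  rw [chiS, uS, ← coeffMap_eval₂_evalJ, eval₂_uZ_eq_zero, map_zero]

theorem isUnit_derivative_uZ : IsUnit ((derivative D.χ).eval₂ (evalJ (Zl ℓ)) D.uZ) := by
  have h1 : toQ ℓ ((derivative D.χ).eval₂ (evalJ (Zl ℓ)) D.uZ) = D.wsum (fun i => i + 1) := by
    rw [← D.eval₂_eq_toQ, D.derivative_eval]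
  have h2 : IsInt ℓ (D.wsum (fun i => i + 1))⁻¹ := D.isInt_inv_wsum _ rfl
  have h3 : D.wsum (fun i => i + 1) ≠ 0 := by
    intro h0
    have := D.coeff_wsum (fun i => i + 1) rfl
    rw [h0, HahnSeries.coeff_zero] at this
    have h4 : (D.χ.coeff 1).coeff D.P = 0 := Subtype.ext this.symm
    have h5 := D.lead_unit
    rw [show (D.n - 1) * D.w = D.P from rfl, h4] at h5
    exact not_isUnit_zero h5
  refine IsUnit.of_mul_eq_one h2.lift ?_
  apply toQ_injective ℓ
  rw [map_mul, h1, h2.toQ_lift, map_one, mul_inv_cancel₀ h3]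

theorem isUnit_derivative :
    IsUnit ((derivative (chiS D f)).eval₂ (evalJ S) (uS D f)) := by
  have := (isUnit_derivative_uZ D).map (coeffMap f)
  rwa [coeffMap_eval₂_evalJ, ← derivative_map] at this

theorem irreducible_chiS {k : Type*} [Field k] (f : Zl ℓ →+* k) : Irreducible (chiS D f) := by
  refine irreducible_of_weighted (chiS D f) D.n D.w D.hn D.hw (chiS_monic D f)
    (chiS_natDegree D f) ?_ ?_ ?_
  · intro i hi
    rw [chiS_coeff]
    exact natDegree_map_le.trans (D.deg_le i hi)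
  · rw [chiS_coeff, coeff_map]
    exact (D.lead_unit.map f).ne_zero
  · rw [chiS_coeff, ← coe_mapRingHom]
    exact D.isUnit_coeff_zero.map _

theorem chiS_comp {S' : Type*} [CommRing S'] (g : S →+* S') :
    (chiS D f).map (Polynomial.mapRingHom g) = chiS D (g.comp f) := by
  rw [chiS, chiS, Polynomial.map_map]
  congr 1
  ext : 2 <;> simp

theorem uS_comp {S' : Type*} [CommRing S'] (g : S →+* S') :
    coeffMap g (uS D f) = uS D (g.comp f) := by
  rw [uS, uS, coeffMap_coeffMap]

end BaseChange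

/-! ### The map `ℤ_(ℓ) → A` -/

section ZlTo

variable {K : Type*} [Field K] [CharZero K] (A : ValuationSubring K) {ℓ : ℕ} [Fact ℓ.Prime]

theorem ratCast_mem_of_liesOver (hℓ : A.LiesOverPrime ℓ) (x : Zl ℓ) : (((x : ℚ) : K)) ∈ A := by
  have hx : (x : ℚ).den.Coprime ℓ := x.2
  have hℓA : (ℓ : K) ∈ A := natCast_mem A ℓ
  have hnu : (⟨(ℓ : K), hℓA⟩ : A) ∈ IsLocalRing.maximalIdeal A := by
    have := hℓ
    rw [ValuationSubring.LiesOverPrime, ValuationSubring.mem_nonunits_iff_exists_mem_maximalIdeal]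
      at this
    obtain ⟨h1, h2⟩ := this
    exact h2
  -- the denominator is a unit of `A`
  have hden : IsUnit (⟨((x : ℚ).den : K), natCast_mem A _⟩ : A) := by
    by_contra hcon
    have h1 : (⟨((x : ℚ).den : K), natCast_mem A _⟩ : A) ∈ IsLocalRing.maximalIdeal A :=
      (IsLocalRing.mem_maximalIdeal _).mpr hcon
    have hb : IsCoprime ((x : ℚ).den : ℤ) (ℓ : ℤ) := Nat.isCoprime_iff_coprime.mpr hx
    obtain ⟨a, b, hab⟩ := hb
    have h2 : (1 : A) ∈ IsLocalRing.maximalIdeal A := by
      have h3 : (1 : A) = (a : A) * ⟨((x : ℚ).den : K), natCast_mem A _⟩ +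
          (b : A) * ⟨(ℓ : K), hℓA⟩ := by
        ext1
        push_cast
        exact_mod_cast (congrArg (fun z : ℤ => (z : K)) hab).symm
      rw [h3]
      exact Ideal.add_mem _ (Ideal.mul_mem_left _ _ h1) (Ideal.mul_mem_left _ _ hnu)
    exact (Ideal.ne_top_iff_one _).mp (IsLocalRing.maximalIdeal.isMaximal A).ne_top h2
  obtain ⟨v, hv⟩ := hden
  have h4 : (((v⁻¹ : Aˣ) : A) : K) = (((x : ℚ).den : K))⁻¹ := by
    have h5 : ((v : A) : K) * (((v⁻¹ : Aˣ) : A) : K) = 1 := by
      have h7 := congrArg (Subtype.val : A → K) (Units.mul_inv v)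
      exact h7
    rw [hv] at h5
    exact eq_inv_of_mul_eq_one_right h5
  have h6 : (((x : ℚ) : K)) = ((x : ℚ).num : K) * (((x : ℚ).den : K))⁻¹ := by
    rw [Rat.cast_def, div_eq_mul_inv]
  rw [h6, ← h4]
  exact mul_mem (intCast_mem A _) (Subtype.mem _)

/-- The canonical map `ℤ_(ℓ) → A` for a valuation subring `A` over `ℓ`. -/
def zlTo (hℓ : A.LiesOverPrime ℓ) : Zl ℓ →+* A where
  toFun x := ⟨((x : ℚ) : K), ratCast_mem_of_liesOver A hℓ x⟩
  map_one' := by ext1; simp
  map_mul' x y := by ext1; simp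
  map_zero' := by ext1; simp
  map_add' x y := by ext1; simp

end ZlTo

/-! ### The `q`-expansion principle over `A[j]` -/

section Core

variable {K : Type*} [Field K] [CharZero K] (A : ValuationSubring K)

/-- `P ↦ P(j)`, from `A[Y]` to `K((q))`. -/
def evJ : A[X] →+* LaurentSeries K := (inc A).comp (evalJ A)

theorem evJ_apply (P : A[X]) : evJ A P = inc A (evalJ A P) := rfl

theorem evJ_injective : Function.Injective (evJ A) :=
  (inc_injective A).comp (evalJ_injective A)

theorem evJ_C (a : A) : evJ A (C a) = algebraMap K (LaurentSeries K) (a : K) := by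
  rw [evJ_apply, evalJ_C, inc_C]

theorem inc_jqModC : inc A (jqModC A) = jqModC K := coeffMap_jqModC _

theorem evJ_X : evJ A X = jqModC K := by
  rw [evJ_apply, evalJ_X, inc_jqModC]

theorem eval₂_evJ (Q : A[X][X]) (v : LaurentSeries A) :
    Q.eval₂ (evJ A) (inc A v) = inc A (Q.eval₂ (evalJ A) v) := by
  rw [hom_eval₂]; rfl

variable [IsDiscreteValuationRing A] {N ℓ : ℕ} [Fact ℓ.Prime] (D : UData N ℓ)
  (hℓ : A.LiesOverPrime ℓ)

theorem irreducible_chiA : Irreducible (chiS D (zlTo A hℓ)) := by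
  refine Monic.irreducible_of_irreducible_map (Polynomial.mapRingHom (IsLocalRing.residue A)) _
    (chiS_monic D _) ?_
  rw [chiS_comp]
  exact irreducible_chiS D _

/-- `A[j][u] ∩ π A((q)) = π A[j][u]`, in polynomial form. -/
theorem dvd_of_eval₂_eq {π : A} (hπ : Irreducible π) (Q : A[X][X]) (hdeg : Q.natDegree < D.n)
    (t : LaurentSeries A)
    (h : Q.eval₂ (evalJ A) (uS D (zlTo A hℓ)) = HahnSeries.C π * t) : C (C π) ∣ Q := by
  have h1 := coeffMap_eval₂_evalJ (IsLocalRing.residue A) Q (uS D (zlTo A hℓ))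
  rw [h, map_mul] at h1
  have h0 : coeffMap (IsLocalRing.residue A) (HahnSeries.C π : LaurentSeries A) = 0 := by
    have := red_C A π
    rw [(residue_eq_zero_iff_dvd hπ π).mpr dvd_rfl, map_zero] at this
    exact this
  rw [h0, zero_mul, uS_comp] at h1
  have h2 : Q.map (Polynomial.mapRingHom (IsLocalRing.residue A)) = 0 := by
    refine eq_zero_of_eval₂_eq_zero_of_natDegree_lt (evalJ (IsLocalRing.ResidueField A))
      (evalJ_injective _) (chiS D ((IsLocalRing.residue A).comp (zlTo A hℓ)))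
      (irreducible_chiS D _) (chiS_monic D _) _ (chiS_eval D _) _ h1.symm ?_
    rw [chiS_natDegree]
    exact lt_of_le_of_lt natDegree_map_le hdeg
  rw [C_dvd_iff_dvd_coeff]
  intro i
  rw [C_dvd_iff_dvd_coeff]
  intro j
  have h3 : ((Q.map (Polynomial.mapRingHom (IsLocalRing.residue A))).coeff i).coeff j = 0 := by
    rw [h2]; simp
  rw [coeff_map, coe_mapRingHom, coeff_map, residue_eq_zero_iff_dvd hπ] at h3
  exact h3

/-- The field `K(j, u)`. -/
def bigField : IntermediateField K (LaurentSeries K) :=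
  IntermediateField.adjoin K {jqModC K, inc A (uS D (zlTo A hℓ))}

/-- **The `q`-expansion principle over `A[j]`.** -/
theorem core {π : A} (hπ : Irreducible π) (x : LaurentSeries K) (hx : x ∈ bigField A D hℓ)
    (hint : (evJ A).IsIntegralElem x) :
    (∃ P, inc A P = x) ∧
      ∀ P, x = inc A (HahnSeries.C π * P) → (evJ A).IsIntegralElem (inc A P) := by
  have : CharZero A := ⟨fun m n h => by
    have h2 := congrArg (Subtype.val : A → K) h
    exact_mod_cast h2⟩
  have hs := isUnit_derivative D (zlTo A hℓ)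
  have key := euler_core (evJ A) (evJ_injective A) (chiS D (zlTo A hℓ)) (irreducible_chiA A D hℓ)
    (chiS_monic D _) (inc A (uS D (zlTo A hℓ)))
    (by rw [eval₂_evJ, chiS_eval, map_zero])
    (inc A).range (fun a => ⟨_, rfl⟩) ⟨_, rfl⟩
    (by
      rw [eval₂_evJ]
      obtain ⟨v, hv⟩ := hs
      refine ⟨((v⁻¹ : (LaurentSeries A)ˣ) : LaurentSeries A), ?_⟩
      rw [← hv]
      refine eq_inv_of_mul_eq_one_left ?_
      rw [← map_mul, Units.inv_mul, map_one])
    (C π) (by rw [Ne, C_eq_zero]; exact hπ.ne_zero)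
    (by
      rintro Q hQ _ ⟨t, rfl⟩ hQt
      rw [chiS_natDegree] at hQ
      refine dvd_of_eval₂_eq A D hℓ hπ Q hQ t ?_
      apply inc_injective A
      rw [← eval₂_evJ, hQt, map_mul, evJ_apply, evalJ_C])
    x
    (by
      intro S hS hu
      have hK : ∀ c : K, algebraMap K (LaurentSeries K) c ∈ S := by
        intro c
        rcases A.mem_or_inv_mem c with hc | hc
        · have := hS (C ⟨c, hc⟩)
          rwa [evJ_C] at this
        · have := hS (C ⟨c⁻¹, hc⟩)
          rw [evJ_C] at this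
          have h2 := S.inv_mem this
          rwa [← map_inv₀, inv_inv] at h2
      have hle : bigField A D hℓ ≤ S.toIntermediateField hK := by
        rw [bigField, IntermediateField.adjoin_le_iff]
        rintro y (rfl | rfl)
        · have := hS X
          rwa [evJ_X] at this
        · exact hu
      exact hle hx)
    hint
  refine ⟨key.1, fun P hP => ?_⟩
  refine key.2 (inc A P) ⟨P, rfl⟩ ?_
  rw [hP, map_mul, evJ_apply, evalJ_C]

end Core

end Fermat.Agent.S18.Vert

end
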