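/-
KL-A, node (4)-S28 "vertical modular inputs".

The Gauss lemma for a base `x` in the Gauss ring with transcendental reduction:
`K[x] ∩ O_w = A[x]`, and the residue field of `K(x) ∩ O_w` is `k(x̄)`.
-/
import Fermat.Agent.S18.Vert.GaussRes

set_option autoImplicit false
set_option linter.unusedSectionVars false

noncomputable section

namespace Fermat.Agent.S18.Vert

open ModularCurve Polynomial IntermediateField

/-! ### The Gauss lemma for the base `x` -/

section Gauss

variable {K : Type*} [Field K] (A : ValuationSubring K)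
variable {F : IntermediateField K (LaurentSeries K)}

/-- Evaluation `A[X] → F` at `x`. -/
def evA (x : F) : A[X] →+* F :=
  Polynomial.eval₂RingHom ((algebraMap K F).comp A.subtype) x

theorem evA_eq_aeval (x : F) (p : A[X]) : evA A x p = aeval x (p.map A.subtype) := by
  rw [evA, coe_eval₂RingHom, aeval_def, eval₂_map]

/-- A polynomial over `K` with coefficients in `A` comes from `A[X]`. -/
theorem exists_map_subtype_eq (p : K[X]) (h : ∀ i, p.coeff i ∈ A) :
    ∃ q : A[X], q.map A.subtype = p := by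
  have : p ∈ Polynomial.lifts A.subtype := by
    rw [Polynomial.lifts_iff_coeff_lifts]
    intro n
    exact ⟨⟨p.coeff n, h n⟩, rfl⟩
  exact (Polynomial.mem_lifts p).mp this

/-- Every nonzero polynomial over `K` is a nonzero constant times a primitive polynomial
over `A`. -/
theorem exists_primitive (p : K[X]) (hp : p ≠ 0) :
    ∃ (c : K) (q : A[X]), c ≠ 0 ∧ q.map (IsLocalRing.residue A) ≠ 0 ∧
      p = Polynomial.C c * q.map A.subtype := by
  have hne : p.support.Nonempty := by
    rw [Finset.nonempty_iff_ne_empty, Ne, Polynomial.support_eq_empty]; exact hp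
  obtain ⟨i0, hi0, hmax⟩ := Finset.exists_max_image p.support
    (fun i => A.valuation (p.coeff i)) hne
  have hc : p.coeff i0 ≠ 0 := Polynomial.mem_support_iff.mp hi0
  have hcoef : ∀ i, (Polynomial.C (p.coeff i0)⁻¹ * p).coeff i ∈ A := by
    intro i
    rw [Polynomial.coeff_C_mul, ← A.valuation_le_one_iff, map_mul, map_inv₀]
    have hv0 : A.valuation (p.coeff i0) ≠ 0 := (A.valuation.ne_zero_iff).mpr hc
    by_cases hi : i ∈ p.support
    · have := hmax i hi
      rw [inv_mul_le_iff₀ (zero_lt_iff.mpr hv0), mul_one]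
      exact this
    · rw [Polynomial.notMem_support_iff.mp hi, map_zero, mul_zero]
      exact zero_le_one
  obtain ⟨q, hq⟩ := exists_map_subtype_eq A _ hcoef
  refine ⟨p.coeff i0, q, hc, ?_, ?_⟩
  · intro h0
    have h1 : q.coeff i0 = 1 := by
      apply Subtype.ext
      have := congrArg (fun r => Polynomial.coeff r i0) hq
      simp only [Polynomial.coeff_map, Polynomial.coeff_C_mul] at this
      rw [inv_mul_cancel₀ hc] at this
      exact this
    have h2 := congrArg (fun r => Polynomial.coeff r i0) h0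
    simp only [Polynomial.coeff_map, h1, map_one, Polynomial.coeff_zero] at h2
    exact one_ne_zero h2
  · rw [hq, ← mul_assoc, ← Polynomial.C_mul, mul_inv_cancel₀ hc, Polynomial.C_1, one_mul]

variable {A}
variable [IsDiscreteValuationRing A] (hq : IsQuot A F) (x : gaussVal A F hq)

/-- Evaluation `A[X] → O_w` at `x`. -/
def evG : A[X] →+* gaussVal A F hq := Polynomial.eval₂RingHom (gaussC hq) x

theorem coe_evG (p : A[X]) : (evG hq x p : F) = evA A (x : F) p := by
  have h1 : ((gaussVal A F hq).subtype).comp (gaussC hq) = (algebraMap K F).comp A.subtype := by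
    ext a : 1
    exact coe_gaussC' hq a
  have h2 := Polynomial.hom_eval₂ p (gaussC hq) ((gaussVal A F hq).subtype) x
  rw [h1] at h2
  exact h2

theorem evA_mem_gaussVal (p : A[X]) : evA A (x : F) p ∈ gaussVal A F hq := by
  rw [← coe_evG hq x p]
  exact (evG hq x p).2

theorem gaussRes_evG (p : A[X]) :
    gaussRes hq (evG hq x p) = aeval (gaussRes hq x) (p.map (IsLocalRing.residue A)) := by
  have h1 : (gaussRes hq).comp (gaussC hq) =
      (algebraMap (IsLocalRing.ResidueField A) (LaurentSeries (IsLocalRing.ResidueField A))).comp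
        (IsLocalRing.residue A) := by
    ext a : 1
    simp only [RingHom.comp_apply]
    rw [gaussRes_gaussC, algebraMap_laurentSeries_eq_single]
    rfl
  have h2 := Polynomial.hom_eval₂ p (gaussC hq) (gaussRes hq) x
  rw [h1] at h2
  rw [aeval_def, eval₂_map]
  exact h2

theorem gaussRes_evA (p : A[X]) :
    gaussRes hq ⟨evA A (x : F) p, evA_mem_gaussVal hq x p⟩ =
      aeval (gaussRes hq x) (p.map (IsLocalRing.residue A)) := by
  rw [← gaussRes_evG hq x p]
  congr 1
  exact Subtype.ext (coe_evG hq x p).symm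

/-- A constant of `K` lying in the Gauss ring lies in `A`. -/
theorem mem_of_algebraMap_mem_gaussVal (c : K) (hc : algebraMap K F c ∈ gaussVal A F hq) :
    c ∈ A := by
  by_contra hcA
  have hc0 : c ≠ 0 := by
    rintro rfl
    exact hcA A.zero_mem
  have hinv : c⁻¹ ∈ A := (A.mem_or_inv_mem c).resolve_left hcA
  have hnu : ¬ IsUnit (⟨c⁻¹, hinv⟩ : A) := by
    intro hu
    obtain ⟨u, hu⟩ := hu
    apply hcA
    have h1 : ((u⁻¹ : Aˣ) : A) * (⟨c⁻¹, hinv⟩ : A) = 1 := by rw [← hu]; exact u.inv_mul
    have h2 : (((u⁻¹ : Aˣ) : A) : K) * c⁻¹ = 1 := congrArg Subtype.val h1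
    have h3 : (((u⁻¹ : Aˣ) : A) : K) = c := by
      field_simp at h2
      exact h2
    rw [← h3]
    exact ((u⁻¹ : Aˣ) : A).2
  have hres : IsLocalRing.residue A (⟨c⁻¹, hinv⟩ : A) = 0 := by
    rw [IsLocalRing.residue_eq_zero_iff, IsLocalRing.mem_maximalIdeal, mem_nonunits_iff]
    exact hnu
  have h0 : gaussRes hq (gaussC hq ⟨c⁻¹, hinv⟩) = 0 := by
    rw [gaussRes_gaussC, hres, map_zero]
  have hunit : IsUnit (gaussC hq ⟨c⁻¹, hinv⟩) := by
    refine IsUnit.of_mul_eq_one (⟨algebraMap K F c, hc⟩ : gaussVal A F hq) ?_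
    apply Subtype.ext
    change (gaussC hq ⟨c⁻¹, hinv⟩ : F) * algebraMap K F c = 1
    rw [coe_gaussC', ← map_mul]
    change algebraMap K F (c⁻¹ * c) = 1
    rw [inv_mul_cancel₀ hc0, map_one]
  exact ((isUnit_iff_gaussRes_ne_zero hq _).mp hunit) h0

variable (hx : Transcendental (IsLocalRing.ResidueField A) (gaussRes hq x))

include hx in
/-- primitive polynomials evaluate to units of the Gauss ring. -/
theorem gaussRes_evG_ne_zero (q : A[X]) (hq0 : q.map (IsLocalRing.residue A) ≠ 0) :
    gaussRes hq (evG hq x q) ≠ 0 := by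
  rw [gaussRes_evG]
  intro h
  exact hq0 ((transcendental_iff.mp hx) _ h)

include hx in
/-- `x` is transcendental over `K`. -/
theorem transcendental_of_gaussRes : Transcendental K (x : F) := by
  rw [transcendental_iff]
  intro p hp
  by_contra hp0
  obtain ⟨c, q, hc, hq0, rfl⟩ := exists_primitive A p hp0
  rw [map_mul, aeval_C, ← evA_eq_aeval, ← coe_evG hq x] at hp
  have hc' : algebraMap K F c ≠ 0 := by
    rw [Ne, map_eq_zero]; exact hc
  have h1 : (evG hq x q : F) = 0 := (mul_eq_zero.mp hp).resolve_left hc'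
  have h2 : evG hq x q = 0 := Subtype.ext h1
  exact gaussRes_evG_ne_zero hq x hx q hq0 (by rw [h2, map_zero])

include hx in
/-- **Gauss lemma**: `K[x] ∩ O_w = A[x]`. -/
theorem aeval_mem_gaussVal_iff (p : K[X]) :
    aeval (x : F) p ∈ gaussVal A F hq ↔ ∀ i, p.coeff i ∈ A := by
  constructor
  · intro hmem
    by_cases hp0 : p = 0
    · intro i
      rw [hp0, coeff_zero]; exact A.zero_mem
    obtain ⟨c, q, hc, hq0, rfl⟩ := exists_primitive A p hp0
    rw [map_mul, aeval_C, ← evA_eq_aeval, ← coe_evG hq x] at hmem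
    have hu : IsUnit (evG hq x q) :=
      (isUnit_iff_gaussRes_ne_zero hq _).mpr (gaussRes_evG_ne_zero hq x hx q hq0)
    obtain ⟨u, hu⟩ := hu
    have hcA : c ∈ A := by
      apply mem_of_algebraMap_mem_gaussVal hq
      have h2 : algebraMap K F c =
          (((⟨_, hmem⟩ : gaussVal A F hq) *
            ((u⁻¹ : (gaussVal A F hq)ˣ) : gaussVal A F hq) : gaussVal A F hq) : F) := by
        have h3 : ((u : gaussVal A F hq) : F) *
            (((u⁻¹ : (gaussVal A F hq)ˣ) : gaussVal A F hq) : F) = 1 :=
          congrArg Subtype.val u.mul_inv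
        change algebraMap K F c = (algebraMap K F c * (evG hq x q : F)) *
          (((u⁻¹ : (gaussVal A F hq)ˣ) : gaussVal A F hq) : F)
        rw [← hu, mul_assoc, h3, mul_one]
      rw [h2]
      exact Subtype.property _
    intro i
    rw [Polynomial.coeff_C_mul, coeff_map]
    exact A.mul_mem _ _ hcA (q.coeff i).2
  · intro h
    obtain ⟨q, rfl⟩ := exists_map_subtype_eq A p h
    rw [← evA_eq_aeval]
    exact evA_mem_gaussVal hq x q

include hx in
/-- The residue field of `K(x) ∩ O_w` is `k(x̄)`. -/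
theorem gaussRes_mem_adjoin (e : gaussVal A F hq) (he : (e : F) ∈ K⟮(x : F)⟯) :
    gaussRes hq e ∈ (IsLocalRing.ResidueField A)⟮gaussRes hq x⟯ := by
  obtain ⟨r, s, hrs⟩ := (IntermediateField.mem_adjoin_simple_iff K (e : F)).mp he
  by_cases hs0 : s = 0
  · have : e = 0 := by
      apply Subtype.ext
      rw [hrs, hs0, map_zero, div_zero]; rfl
    rw [this, map_zero]
    exact zero_mem _
  obtain ⟨c, s', hc, hs', rfl⟩ := exists_primitive A s hs0
  have hc' : algebraMap K F c ≠ 0 := by
    rw [Ne, map_eq_zero]; exact hc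
  have hne : gaussRes hq (evG hq x s') ≠ 0 := gaussRes_evG_ne_zero hq x hx s' hs'
  have hs'F : (evG hq x s' : F) ≠ 0 := by
    intro h0
    apply hne
    have : evG hq x s' = 0 := Subtype.ext h0
    rw [this, map_zero]
  rw [map_mul, aeval_C, ← evA_eq_aeval, ← coe_evG hq x] at hrs
  have h1 : aeval (x : F) (Polynomial.C c⁻¹ * r) = ((e * evG hq x s' : gaussVal A F hq) : F) := by
    change _ = (e : F) * (evG hq x s' : F)
    rw [hrs, map_mul, aeval_C, map_inv₀]
    field_simp
  have h2 : ∀ i, (Polynomial.C c⁻¹ * r).coeff i ∈ A := by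
    rw [← aeval_mem_gaussVal_iff hq x hx, h1]
    exact Subtype.property _
  obtain ⟨r', hr'⟩ := exists_map_subtype_eq A _ h2
  have h3 : e * evG hq x s' = evG hq x r' := by
    apply Subtype.ext
    rw [← h1, ← hr', ← evA_eq_aeval, coe_evG]
  have h4 : gaussRes hq e * gaussRes hq (evG hq x s') = gaussRes hq (evG hq x r') := by
    rw [← map_mul, h3]
  rw [IntermediateField.mem_adjoin_simple_iff]
  refine ⟨r'.map (IsLocalRing.residue A), s'.map (IsLocalRing.residue A), ?_⟩
  rw [← gaussRes_evG, ← gaussRes_evG, ← h4, mul_div_cancel_right₀ _ hne]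

end Gauss

end Fermat.Agent.S18.Vert

end
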