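/-
KL-A, node (4)-S28 "vertical modular inputs".

The Gauss valuation ring of a field `K(j) ⊆ F ⊆ K(j, u)`:  `F` is generated by integral series,
and the Gauss ring is the localisation of the integral closure of `A[j]` at the polynomials in `j`
with nonzero reduction.
-/
import Fermat.Agent.S18.Vert.GaussRes
import Fermat.Agent.S18.Vert.Core

set_option autoImplicit false
set_option linter.unusedSectionVars false

noncomputable section

namespace Fermat.Agent.S18.Vert

open ModularCurve Polynomial Fermat.Agent.S28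

variable {K : Type*} [Field K] [CharZero K] (A : ValuationSubring K) [IsDiscreteValuationRing A]
variable {N ℓ : ℕ} [Fact ℓ.Prime] (D : UData N ℓ) (hℓ : A.LiesOverPrime ℓ)

/-- Every element of `K(j, u)` has a nonzero multiple `c(j) f`, `c ∈ A[Y]`, integral over `A[j]`. -/
theorem exists_mul_integral (f : LaurentSeries K) (hf : f ∈ bigField A D hℓ) :
    ∃ c : A[X], c ≠ 0 ∧ (evJ A).IsIntegralElem (evJ A c * f) := by
  let _ : Algebra A[X] (LaurentSeries K) := (evJ A).toAlgebra
  -- the subfield of the elements algebraic over `A[j]`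
  let S : Subfield (LaurentSeries K) :=
    { (Subalgebra.algebraicClosure A[X] (LaurentSeries K)).toSubring with
      inv_mem' := fun x hx => IsAlgebraic.inv (R := A[X]) hx }
  have hS : ∀ c : A[X], evJ A c ∈ S := fun c =>
    (Subalgebra.algebraicClosure A[X] (LaurentSeries K)).algebraMap_mem c
  have hK : ∀ c : K, algebraMap K (LaurentSeries K) c ∈ S := by
    intro c
    rcases A.mem_or_inv_mem c with hc | hc
    · have := hS (C ⟨c, hc⟩)
      rwa [evJ_C] at this
    · have := hS (C ⟨c⁻¹, hc⟩)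
      rw [evJ_C] at this
      have h2 := S.inv_mem this
      rwa [← map_inv₀, inv_inv] at h2
  have hu : inc A (uS D (zlTo A hℓ)) ∈ S := by
    have hint : IsIntegral A[X] (inc A (uS D (zlTo A hℓ))) :=
      ⟨chiS D (zlTo A hℓ), chiS_monic D _, by
        change (chiS D (zlTo A hℓ)).eval₂ (evJ A) _ = 0
        rw [eval₂_evJ, chiS_eval, map_zero]⟩
    exact hint.isAlgebraic
  have hle : bigField A D hℓ ≤ S.toIntermediateField hK := by
    rw [bigField, IntermediateField.adjoin_le_iff]
    rintro y (rfl | rfl)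
    · have := hS X
      rwa [evJ_X] at this
    · exact hu
  have halg : IsAlgebraic A[X] f := hle hf
  obtain ⟨c, hc0, hc⟩ := halg.exists_integral_multiple
  exact ⟨c, hc0, hc⟩

variable {A D hℓ}
variable {F : IntermediateField K (LaurentSeries K)}

theorem evJ_mem (hj : jqModC K ∈ F) (c : A[X]) : evJ A c ∈ F := by
  induction c using Polynomial.induction_on' with
  | add p q hp hq => rw [map_add]; exact add_mem hp hq
  | monomial n a =>
    rw [← C_mul_X_pow_eq_monomial, map_mul, map_pow, evJ_C, evJ_X]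
    exact mul_mem (F.algebraMap_mem _) (pow_mem hj n)

theorem jqModC_mem_bigField : jqModC K ∈ bigField A D hℓ :=
  IntermediateField.subset_adjoin K _ (Set.mem_insert _ _)

/-- `F` is generated by integral series. -/
theorem isQuot (hj : jqModC K ∈ F) (hF : F ≤ bigField A D hℓ) : IsQuot A F := by
  intro f
  obtain ⟨π, hπ⟩ := IsDiscreteValuationRing.exists_irreducible A
  obtain ⟨c, hc0, hc⟩ := exists_mul_integral A D hℓ (f : LaurentSeries K) (hF f.2)
  obtain ⟨P, hP⟩ := (core A D hℓ hπ _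
    (mul_mem (evJ_mem jqModC_mem_bigField c) (hF f.2)) hc).1
  refine ⟨P, evalJ A c, ?_, evJ_mem hj c, ?_, ?_⟩
  · rw [hP]; exact mul_mem (evJ_mem hj c) f.2
  · exact fun h => hc0 (evalJ_injective A (h.trans (map_zero _).symm))
  · rw [hP, mul_comm]; rfl

/-- A nonzero polynomial over `A` is a power of the uniformizer times a polynomial of nonzero
reduction. -/
theorem exists_C_pow_mul {π : A} (hπ : Irreducible π) (c : A[X]) (hc : c ≠ 0) :
    ∃ (m : ℕ) (c₁ : A[X]), c = C π ^ m * c₁ ∧ red A (evalJ A c₁) ≠ 0 := by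
  have hnu : ¬ IsUnit (C π : A[X]) := fun h => hπ.not_isUnit (Polynomial.isUnit_C.mp h)
  obtain ⟨m, c₁, hnd, rfl⟩ := WfDvdMonoid.max_power_factor' hc hnu
  refine ⟨m, c₁, rfl, fun h0 => hnd ?_⟩
  have h1 : evalJ (IsLocalRing.ResidueField A) (c₁.map (IsLocalRing.residue A)) = 0 := by
    rw [← coeffMap_evalJ]; exact h0
  have h2 : c₁.map (IsLocalRing.residue A) = 0 :=
    evalJ_injective _ (h1.trans (map_zero _).symm)
  rw [C_dvd_iff_dvd_coeff]
  intro i
  rw [← residue_eq_zero_iff_dvd hπ, ← coeff_map, h2, coeff_zero]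

/-- The Gauss ring of `F` is `B[S⁻¹]`, `B` the integral closure of `A[j]` in `F`,
`S = {c(j) : c ∈ A[Y], c ≢ 0 mod π}`. -/
theorem exists_integral_div (hj : jqModC K ∈ F) (hF : F ≤ bigField A D hℓ) (hq : IsQuot A F)
    (f : gaussVal A F hq) :
    ∃ (c : A[X]) (b : LaurentSeries A), red A (evalJ A c) ≠ 0 ∧
      (evJ A).IsIntegralElem (inc A b) ∧ ((f : F) : LaurentSeries K) * evJ A c = inc A b := by
  obtain ⟨π, hπ⟩ := IsDiscreteValuationRing.exists_irreducible A
  obtain ⟨c₀, hc0, hc⟩ := exists_mul_integral A D hℓ ((f : F) : LaurentSeries K) (hF (f : F).2)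
  obtain ⟨m, c₁, rfl, hc₁⟩ := exists_C_pow_mul hπ c₀ hc0
  obtain ⟨P, Q, -, -, hQ0, hPQ⟩ := f.2
  refine ⟨c₁, ?_⟩
  clear hc0
  induction m with
  | zero =>
    rw [pow_zero, one_mul] at hc
    obtain ⟨Y, hY⟩ := (core A D hℓ hπ _
      (mul_mem (evJ_mem jqModC_mem_bigField c₁) (hF (f : F).2)) hc).1
    exact ⟨Y, hc₁, by rw [hY]; exact hc, by rw [hY, mul_comm]⟩
  | succ m ih =>
    apply ih
    have hmem := mul_mem (evJ_mem (A := A) (jqModC_mem_bigField (D := D) (hℓ := hℓ))
      (C π ^ (m + 1) * c₁)) (hF (f : F).2)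
    obtain ⟨⟨Y, hY⟩, h2⟩ := core A D hℓ hπ _ hmem hc
    -- `Y` has zero reduction
    have h3 : Y * Q = HahnSeries.C π * (evalJ A (C π ^ m * c₁) * P) := by
      apply inc_injective A
      rw [map_mul, hY, mul_assoc, hPQ, map_mul (inc A), map_mul (inc A), ← evJ_apply, ← evalJ_C,
        ← evJ_apply, ← mul_assoc, ← map_mul, pow_succ', mul_assoc]
    have h4 : red A Y = 0 := by
      have h5 : red A Y * red A Q = 0 := by
        rw [← map_mul, h3, map_mul, red_C, (residue_eq_zero_iff_dvd hπ π).mpr dvd_rfl, map_zero,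
          zero_mul]
      exact (mul_eq_zero.mp h5).resolve_right hQ0
    obtain ⟨Y₁, rfl⟩ := (red_eq_zero_iff hπ Y).mp h4
    have h6 := h2 Y₁ hY.symm
    have h7 : evJ A (C π ^ m * c₁) * ((f : F) : LaurentSeries K) = inc A Y₁ := by
      have hπ0 : inc A (HahnSeries.C π) ≠ 0 := by
        rw [Ne, inc_eq_zero_iff]
        exact C_ne_zero hπ.ne_zero
      apply mul_left_cancel₀ hπ0
      rw [← map_mul, hY, ← evalJ_C, ← evJ_apply, ← mul_assoc, ← map_mul, pow_succ', mul_assoc]
    rw [h7]
    exact h6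

end Fermat.Agent.S18.Vert

end
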