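/-
KL-A, node (4)-S28 "vertical modular inputs".

Change of the base line: for `x` in the Gauss ring of `F` with transcendental reduction and
`j ∈ K(x)`, the integral closure of `A[x]` in `F` is the intersection of the integral closure of
`K[x]` with the Gauss ring.
-/
import Fermat.Agent.S18.Vert.Modular
import Fermat.Agent.S18.Vert.GaussLemma

set_option autoImplicit false
set_option linter.unusedSectionVars false

noncomputable section

namespace Fermat.Agent.S18.Vert

open ModularCurve Polynomial Fermat.Agent.S28 IntermediateField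

/-! ### Abstract lemma -/

/-- If `y` is integral over two integrally closed domains `R₁`, `R₂` with the same fraction
field `E`, the coefficients of its minimal polynomial over `E` lie in both. -/
theorem minpoly_coeff_mem_of_two {E F R₁ R₂ : Type*} [Field E] [Field F] [Algebra E F]
    [CommRing R₁] [IsDomain R₁] [IsIntegrallyClosed R₁] [Algebra R₁ E] [IsFractionRing R₁ E]
    [Algebra R₁ F] [IsScalarTower R₁ E F]
    [CommRing R₂] [IsDomain R₂] [IsIntegrallyClosed R₂] [Algebra R₂ E] [IsFractionRing R₂ E]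
    [Algebra R₂ F] [IsScalarTower R₂ E F]
    (y : F) (h₁ : IsIntegral R₁ y) (h₂ : IsIntegral R₂ y) (i : ℕ) :
    (minpoly E y).coeff i ∈ (algebraMap R₁ E).range ∧
      (minpoly E y).coeff i ∈ (algebraMap R₂ E).range := by
  constructor
  · rw [minpoly.isIntegrallyClosed_eq_field_fractions' E h₁, coeff_map]
    exact ⟨_, rfl⟩
  · rw [minpoly.isIntegrallyClosed_eq_field_fractions' E h₂, coeff_map]
    exact ⟨_, rfl⟩

/-! ### The integral closure of `A[x]` -/

section Main

variable {K : Type*} [Field K] [CharZero K] {A : ValuationSubring K} [IsDiscreteValuationRing A]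
variable {N ℓ : ℕ} [Fact ℓ.Prime] {D : UData N ℓ} {hℓ : A.LiesOverPrime ℓ}
variable {F : IntermediateField K (LaurentSeries K)}
variable (hj : jqModC K ∈ F) (hF : F ≤ bigField A D hℓ) (hq : IsQuot A F)
variable (x : gaussVal A F hq)

/-- `evA` at `j` is `evJ`. -/
theorem coe_evA_j (p : A[X]) :
    ((evA A (⟨jqModC K, hj⟩ : F) p : F) : LaurentSeries K) = evJ A p := by
  have h : (algebraMap F (LaurentSeries K)).comp (evA A (⟨jqModC K, hj⟩ : F)) = evJ A := by
    refine Polynomial.ringHom_ext (fun a => ?_) ?_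
    · rw [evJ_C, RingHom.comp_apply, evA, coe_eval₂RingHom, eval₂_C]
      rfl
    · rw [evJ_X, RingHom.comp_apply, evA, coe_eval₂RingHom, eval₂_X]
      rfl
  exact congrArg (fun g : A[X] →+* LaurentSeries K => g p) h

/-- `j` as an element of the Gauss ring. -/
def jGauss : gaussVal A F hq :=
  gaussMk hq (jqModC A) (by rw [inc_jqModC]; exact hj)

theorem coe_jGauss : (jGauss hj hq : F) = ⟨jqModC K, hj⟩ :=
  Subtype.ext (inc_jqModC A)

include hF in
/-- Elements of the Gauss ring are integral over its intersection with any subfield `E ∋ j`. -/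
theorem isIntegralElem_comap (E : IntermediateField K F) (hjE : (⟨jqModC K, hj⟩ : F) ∈ E)
    (f : gaussVal A F hq) :
    ((algebraMap E F).comp ((gaussVal A F hq).comap (algebraMap E F)).subtype).IsIntegralElem
      (f : F) := by
  obtain ⟨c, b, hc, hb, hfb⟩ := exists_integral_div hj hF hq f
  set jF : F := ⟨jqModC K, hj⟩ with hjF
  -- the map `A[X] → E`
  let ψ₀ : A[X] →+* E := Polynomial.eval₂RingHom ((algebraMap K E).comp A.subtype) ⟨jF, hjE⟩
  have hψ₀ : ∀ p, algebraMap E F (ψ₀ p) = evA A jF p := by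
    intro p
    have h : (algebraMap E F).comp ψ₀ = evA A jF := by
      refine Polynomial.ringHom_ext (fun a => ?_) ?_
      · simp only [ψ₀, RingHom.comp_apply, coe_eval₂RingHom, eval₂_C, evA]
        rfl
      · simp only [ψ₀, RingHom.comp_apply, coe_eval₂RingHom, eval₂_X, evA]
        rfl
    exact congrArg (fun g : A[X] →+* F => g p) h
  have hmem : ∀ p, evA A jF p ∈ gaussVal A F hq := by
    intro p
    have := evA_mem_gaussVal hq (jGauss hj hq) p
    rwa [coe_jGauss] at this
  let ψ : A[X] →+* (gaussVal A F hq).comap (algebraMap E F) :=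
    ψ₀.codRestrict ((gaussVal A F hq).comap (algebraMap E F)).toSubring (fun p => by
      change algebraMap E F (ψ₀ p) ∈ gaussVal A F hq
      rw [hψ₀]; exact hmem p)
  set φ : (gaussVal A F hq).comap (algebraMap E F) →+* F :=
    (algebraMap E F).comp ((gaussVal A F hq).comap (algebraMap E F)).subtype with hφ
  have hφψ : ∀ p, φ (ψ p) = evA A jF p := fun p => hψ₀ p
  -- `b` as an element of `F`
  have hcF : evJ A c ∈ F := evJ_mem hj c
  have hbF : inc A b ∈ F := by rw [← hfb]; exact mul_mem (f : F).2 hcF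
  have hb' : φ.IsIntegralElem (⟨inc A b, hbF⟩ : F) := by
    obtain ⟨P, hP, hPb⟩ := hb
    refine ⟨P.map ψ, hP.map ψ, ?_⟩
    rw [eval₂_map]
    apply (algebraMap F (LaurentSeries K)).injective
    rw [hom_eval₂, map_zero, ← hPb]
    congr 1
    exact RingHom.ext fun p => by
      rw [RingHom.comp_apply, RingHom.comp_apply, hφψ]
      exact coe_evA_j hj p
  -- `c(j)` is a unit of the Gauss ring
  have hcu : IsUnit (⟨evA A jF c, hmem c⟩ : gaussVal A F hq) := by
    rw [isUnit_iff_gaussRes_ne_zero hq]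
    have h1 : (⟨evA A jF c, hmem c⟩ : gaussVal A F hq) =
        gaussMk hq (evalJ A c) (by rw [← evJ_apply]; exact hcF) := by
      apply Subtype.ext; apply Subtype.ext
      exact coe_evA_j hj c
    rw [h1, gaussRes_gaussMk]
    exact hc
  have hc0 : evA A jF c ≠ 0 := by
    intro h0
    apply hcu.ne_zero
    exact Subtype.ext h0
  have hinv : (evA A jF c)⁻¹ ∈ gaussVal A F hq := by
    obtain ⟨v, hv⟩ := hcu
    have h1 : ((v : gaussVal A F hq) : F) * (((v⁻¹ : (gaussVal A F hq)ˣ) : gaussVal A F hq) : F)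
        = 1 := congrArg (Subtype.val : gaussVal A F hq → F) (Units.mul_inv v)
    rw [hv] at h1
    rw [← eq_inv_of_mul_eq_one_right h1]
    exact Subtype.mem _
  have hinv' : (ψ₀ c)⁻¹ ∈ (gaussVal A F hq).comap (algebraMap E F) := by
    change algebraMap E F (ψ₀ c)⁻¹ ∈ gaussVal A F hq
    rw [map_inv₀, hψ₀]; exact hinv
  have hfeq : (f : F) = (⟨inc A b, hbF⟩ : F) * φ ⟨(ψ₀ c)⁻¹, hinv'⟩ := by
    have h1 : φ ⟨(ψ₀ c)⁻¹, hinv'⟩ = (evA A jF c)⁻¹ := by
      change algebraMap E F (ψ₀ c)⁻¹ = _
      rw [map_inv₀, hψ₀]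
    have h2 : (f : F) * evA A jF c = ⟨inc A b, hbF⟩ := by
      apply Subtype.ext
      change ((f : F) : LaurentSeries K) * ((evA A jF c : F) : LaurentSeries K) = inc A b
      rw [coe_evA_j hj c, hfb]
    rw [h1, ← h2, mul_inv_cancel_right₀ hc0]
  rw [hfeq]
  exact hb'.mul _ (φ.isIntegralElem_map)

variable (hx : Transcendental (IsLocalRing.ResidueField A) (gaussRes hq x))
variable (hjx : (⟨jqModC K, hj⟩ : F) ∈ K⟮(x : F)⟯)

omit [CharZero K] [IsDiscreteValuationRing A] in
theorem evA_mem_adjoin (z : F) (p : A[X]) : evA A z p ∈ Algebra.adjoin K {z} := by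
  rw [evA_eq_aeval, Algebra.adjoin_singleton_eq_range_aeval]
  exact ⟨_, rfl⟩

omit [CharZero K] [IsDiscreteValuationRing A] in
/-- integral over `A[z]` implies integral over `K[z]`. -/
theorem isIntegral_adjoin_of_evA (z y : F) (h : (evA A z).IsIntegralElem y) :
    IsIntegral (Algebra.adjoin K {z}) y := by
  obtain ⟨P, hP, hPy⟩ := h
  let θ : A[X] →+* Algebra.adjoin K {z} :=
    (evA A z).codRestrict (Algebra.adjoin K {z}).toSubring (evA_mem_adjoin z)
  refine ⟨P.map θ, hP.map θ, ?_⟩
  rw [eval₂_map]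
  exact hPy

open scoped IntermediateField.algebraAdjoinAdjoin in
include hF hx hjx in
/-- **The integral closure of `A[x]` is `(integral closure of K[x]) ∩ O_w`.** -/
theorem isIntegralElem_evA_iff (y : F) :
    (evA A (x : F)).IsIntegralElem y ↔
      IsIntegral (Algebra.adjoin K {(x : F)}) y ∧ y ∈ gaussVal A F hq := by
  constructor
  · intro h
    refine ⟨isIntegral_adjoin_of_evA _ _ h, ?_⟩
    obtain ⟨P, hP, hPy⟩ := h
    let θ : A[X] →+* gaussVal A F hq :=
      (evA A (x : F)).codRestrict (gaussVal A F hq).toSubring (evA_mem_gaussVal hq x)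
    have h1 : IsIntegral (gaussVal A F hq) y :=
      ⟨P.map θ, hP.map θ, by rw [eval₂_map]; exact hPy⟩
    obtain ⟨z, hz⟩ := IsIntegrallyClosed.isIntegral_iff.mp h1
    rw [← hz]; exact z.2
  · rintro ⟨h1, h2⟩
    have hxt : Transcendental K (x : F) := transcendental_of_gaussRes hq x hx
    have : UniqueFactorizationMonoid (Algebra.adjoin K {(x : F)}) :=
      hxt.uniqueFactorizationMonoid_adjoin
    let _ : Algebra ((gaussVal A F hq).comap (algebraMap K⟮(x : F)⟯ F)) F :=
      ((algebraMap K⟮(x : F)⟯ F).comp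
        ((gaussVal A F hq).comap (algebraMap K⟮(x : F)⟯ F)).subtype).toAlgebra
    have : IsScalarTower ((gaussVal A F hq).comap (algebraMap K⟮(x : F)⟯ F)) K⟮(x : F)⟯ F :=
      IsScalarTower.of_algebraMap_eq (fun _ => rfl)
    have h3 : IsIntegral ((gaussVal A F hq).comap (algebraMap K⟮(x : F)⟯ F)) y :=
      isIntegralElem_comap hj hF hq K⟮(x : F)⟯ hjx ⟨y, h2⟩
    have hcoef : ∀ i, algebraMap K⟮(x : F)⟯ F ((minpoly K⟮(x : F)⟯ y).coeff i) ∈
        (evA A (x : F)).range := by
      intro i
      obtain ⟨⟨r, hr⟩, ⟨o, ho⟩⟩ := minpoly_coeff_mem_of_two (E := K⟮(x : F)⟯)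
        (R₁ := Algebra.adjoin K {(x : F)})
        (R₂ := (gaussVal A F hq).comap (algebraMap K⟮(x : F)⟯ F)) y h1 h3 i
      have hr' : (r : F) = algebraMap K⟮(x : F)⟯ F ((minpoly K⟮(x : F)⟯ y).coeff i) := by
        rw [← hr]; rfl
      have ho' : algebraMap K⟮(x : F)⟯ F ((minpoly K⟮(x : F)⟯ y).coeff i) ∈ gaussVal A F hq := by
        rw [← ho]; exact o.2
      have hr2 : (r : F) ∈ (aeval (R := K) (x : F)).range := by
        rw [← Algebra.adjoin_singleton_eq_range_aeval]; exact r.2
      obtain ⟨p, hp⟩ := hr2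
      have hp' : aeval (x : F) p = (r : F) := hp
      rw [← hr', ← hp'] at ho' ⊢
      obtain ⟨c, hc⟩ := exists_map_subtype_eq A p ((aeval_mem_gaussVal_iff hq x hx p).mp ho')
      exact ⟨c, by rw [evA_eq_aeval, hc]⟩
    have hlift : (minpoly K⟮(x : F)⟯ y).map (algebraMap K⟮(x : F)⟯ F) ∈
        lifts (evA A (x : F)) := by
      rw [lifts_iff_coeff_lifts]
      intro n
      rw [coeff_map]
      exact hcoef n
    have hyE : IsIntegral K⟮(x : F)⟯ y := h1.tower_top
    obtain ⟨Q, hQ, -, hQm⟩ := lifts_and_natDegree_eq_and_monic hlift ((minpoly.monic hyE).map _)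
    refine ⟨Q, hQm, ?_⟩
    rw [← eval_map, hQ, eval_map, ← aeval_def, minpoly.aeval]

include hF hx hjx in
/-- Saturation (QEP for the base `x`). -/
theorem isIntegralElem_of_mul {π : A} (hπ : Irreducible π) (y : gaussVal A F hq)
    (hy : (evA A (x : F)).IsIntegralElem (algebraMap K F (π : K) * (y : F))) :
    (evA A (x : F)).IsIntegralElem (y : F) := by
  rw [isIntegralElem_evA_iff hj hF hq x hx hjx]
  refine ⟨?_, y.2⟩
  have h1 := isIntegral_adjoin_of_evA _ _ hy
  have hπ0 : (π : K) ≠ 0 := fun h0 => hπ.ne_zero (Subtype.ext h0)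
  have h2 : (y : F) = algebraMap (Algebra.adjoin K {(x : F)}) F
      (algebraMap K (Algebra.adjoin K {(x : F)}) (π : K)⁻¹) *
        (algebraMap K F (π : K) * (y : F)) := by
    rw [← IsScalarTower.algebraMap_apply K (Algebra.adjoin K {(x : F)}) F, ← mul_assoc, ← map_mul,
      inv_mul_cancel₀ hπ0, map_one, one_mul]
  rw [h2]
  exact isIntegral_algebraMap.mul h1

omit [CharZero K] [IsDiscreteValuationRing A] in
/-- Normalisation of a nonzero polynomial over `K`: a scalar multiple has coefficients in `A` and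
nonzero reduction. -/
theorem exists_smul_primitive (p : K[X]) (hp : p ≠ 0) :
    ∃ (a : K) (c : A[X]), a ≠ 0 ∧ c.map A.subtype = C a * p ∧
      c.map (IsLocalRing.residue A) ≠ 0 := by
  have hne : p.support.Nonempty := by
    rw [Finset.nonempty_iff_ne_empty, Ne, support_eq_empty]; exact hp
  obtain ⟨i₀, hi₀, hmax⟩ := Finset.exists_max_image p.support
    (fun i => A.valuation (p.coeff i)) hne
  have h0 : p.coeff i₀ ≠ 0 := mem_support_iff.mp hi₀
  have hmem : ∀ i, (C (p.coeff i₀)⁻¹ * p).coeff i ∈ A := by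
    intro i
    rw [Polynomial.coeff_C_mul, ← A.valuation_le_one_iff, map_mul, map_inv₀]
    by_cases hi : i ∈ p.support
    · have h1 : A.valuation (p.coeff i₀) ≠ 0 := (A.valuation.ne_zero_iff).mpr h0
      rw [inv_mul_le_iff₀ (zero_lt_iff.mpr h1), mul_one]
      exact hmax i hi
    · rw [notMem_support_iff.mp hi, map_zero, mul_zero]
      exact zero_le_one
  obtain ⟨c, hc⟩ := exists_map_subtype_eq A _ hmem
  refine ⟨(p.coeff i₀)⁻¹, c, inv_ne_zero h0, hc, fun hc0 => ?_⟩
  have h1 : (c.coeff i₀ : K) = 1 := by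
    have := congrArg (fun r => coeff r i₀) hc
    simp only [coeff_map, Polynomial.coeff_C_mul] at this
    rw [inv_mul_cancel₀ h0] at this
    exact this
  have h2 : c.coeff i₀ = 1 := Subtype.ext h1
  have h3 := congrArg (fun r => coeff r i₀) hc0
  simp only [coeff_map, coeff_zero, h2, map_one] at h3
  exact one_ne_zero h3

open scoped IntermediateField.algebraAdjoinAdjoin in
include hF hx hjx in
/-- The Gauss ring is the localisation of the integral closure of `A[x]` at the polynomials in `x`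
with nonzero reduction. -/
theorem exists_integral_div_base (f : gaussVal A F hq) :
    ∃ (c : A[X]) (b : F), c.map (IsLocalRing.residue A) ≠ 0 ∧
      (evA A (x : F)).IsIntegralElem b ∧ (f : F) * evA A (x : F) c = b := by
  -- `f` is algebraic over `K(x)`, hence over `K[x]`
  have h1 : IsIntegral K⟮(x : F)⟯ (f : F) := by
    obtain ⟨P, hP, hPf⟩ := isIntegralElem_comap hj hF hq K⟮(x : F)⟯ hjx f
    refine ⟨P.map ((gaussVal A F hq).comap (algebraMap K⟮(x : F)⟯ F)).subtype, hP.map _, ?_⟩
    rw [eval₂_map]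
    exact hPf
  have h2 : IsAlgebraic (Algebra.adjoin K {(x : F)}) (f : F) :=
    (IsFractionRing.isAlgebraic_iff (Algebra.adjoin K {(x : F)}) K⟮(x : F)⟯ F).mpr h1.isAlgebraic
  obtain ⟨r, hr0, hr⟩ := h2.exists_integral_multiple
  have hr2 : (r : F) ∈ (aeval (R := K) (x : F)).range := by
    rw [← Algebra.adjoin_singleton_eq_range_aeval]; exact r.2
  obtain ⟨p, hp⟩ := hr2
  have hp' : aeval (x : F) p = (r : F) := hp
  have hp0 : p ≠ 0 := by
    rintro rfl
    rw [map_zero] at hp'
    exact hr0 (Subtype.ext hp'.symm)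
  obtain ⟨a, c, ha, hc, hcr⟩ := exists_smul_primitive (A := A) p hp0
  refine ⟨c, _, hcr, ?_, rfl⟩
  rw [isIntegralElem_evA_iff hj hF hq x hx hjx]
  refine ⟨?_, mul_mem f.2 (evA_mem_gaussVal hq x c)⟩
  have h3 : (f : F) * evA A (x : F) c = algebraMap (Algebra.adjoin K {(x : F)}) F
      (algebraMap K (Algebra.adjoin K {(x : F)}) a) * (r • (f : F)) := by
    rw [evA_eq_aeval, hc, map_mul, aeval_C, hp',
      ← IsScalarTower.algebraMap_apply K (Algebra.adjoin K {(x : F)}) F, Algebra.smul_def]
    change _ = _ * ((r : F) * (f : F))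
    ring
  rw [h3]
  exact isIntegral_algebraMap.mul hr

end Main

end Fermat.Agent.S18.Vert

end
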