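/-
KL-A, node (4)-S28 "vertical modular inputs" (owner of this file: helper88).

The trace form of `F / E` is nondegenerate modulo `π` on the Gauss ring, for every field
`K(j) ⊆ E ⊆ F ⊆ K(j, u)`: there is `y₁` in the Gauss ring with `Tr_{F/E} y₁ ∉ π O_w`.
-/
import Fermat.Agent.S18.Vert.AnyBase
import Fermat.Agent.S18.Vert.TraceAbs

set_option autoImplicit false
set_option linter.unusedSectionVars false
set_option linter.style.haveILetI false

noncomputable section

namespace Fermat.Agent.S18.Vert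

open ModularCurve Polynomial Fermat.Agent.S28 IntermediateField

/-- Euler's trace-one element for `L = KK(u)`, `u` a root of the irreducible monic `χ`. -/
theorem trace_euler {R KK L : Type*} [CommRing R] [IsDomain R] [IsIntegrallyClosed R]
    [Field KK] [Algebra R KK] [IsFractionRing R KK] [CharZero KK] [Field L] [Algebra KK L]
    [Algebra R L] [IsScalarTower R KK L]
    (χ : R[X]) (hirr : Irreducible χ) (hmonic : χ.Monic) (u : L) (hu : aeval u χ = 0)
    (htop : KK⟮u⟯ = ⊤) :
    FiniteDimensional KK L ∧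
      Algebra.trace KK L (u ^ (χ.natDegree - 1) / aeval u (derivative χ)) = 1 := by
  have hirr' : Irreducible (χ.map (algebraMap R KK)) :=
    (Monic.irreducible_iff_irreducible_map_fraction_map hmonic).mp hirr
  have hroot : aeval u (χ.map (algebraMap R KK)) = 0 := by
    rw [aeval_map_algebraMap, hu]
  have hmin : minpoly KK u = χ.map (algebraMap R KK) :=
    (minpoly.eq_of_irreducible_of_monic hirr' hroot (hmonic.map _)).symm
  have huK : IsIntegral KK u := ⟨_, hmonic.map _, by rw [← aeval_def]; exact hroot⟩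
  let pb : PowerBasis KK L :=
    (adjoin.powerBasis huK).map ((IntermediateField.equivOfEq htop).trans IntermediateField.topEquiv)
  have hgen : pb.gen = u := by
    simp [pb]
  haveI : FiniteDimensional KK L := pb.finite
  refine ⟨inferInstance, ?_⟩
  have h1 := trace_pow_div_derivative pb
  have hdim : pb.dim = χ.natDegree := by
    rw [← pb.natDegree_minpoly, hgen, hmin, hmonic.natDegree_map]
  rw [hgen, hdim, hmin, derivative_map, aeval_map_algebraMap] at h1
  exact h1

section

variable {K : Type*} [Field K] [CharZero K] {A : ValuationSubring K} [IsDiscreteValuationRing A]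
variable {N ℓ : ℕ} [Fact ℓ.Prime] {D : UData N ℓ} {hℓ : A.LiesOverPrime ℓ}
variable {F : IntermediateField K (LaurentSeries K)}
variable (hj : jqModC K ∈ F) (hF : F ≤ bigField A D hℓ) (hq : IsQuot A F)

include hF in
/-- Elements of the Gauss ring are integral over its intersection with any field `E₁` mapping to
`F` and receiving `A[j]`. -/
theorem isIntegralElem_comap' {E₁ : Type*} [Field E₁] [Algebra E₁ F] (ψ₀ : A[X] →+* E₁)
    (hψ₀ : ∀ p, algebraMap E₁ F (ψ₀ p) = evA A (⟨jqModC K, hj⟩ : F) p) (f : gaussVal A F hq) :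
    ((algebraMap E₁ F).comp ((gaussVal A F hq).comap (algebraMap E₁ F)).subtype).IsIntegralElem
      (f : F) := by
  obtain ⟨c, b, hc, hb, hfb⟩ := exists_integral_div hj hF hq f
  set jF : F := ⟨jqModC K, hj⟩ with hjF
  have hmem : ∀ p, evA A jF p ∈ gaussVal A F hq := by
    intro p
    have := evA_mem_gaussVal hq (jGauss hj hq) p
    rwa [coe_jGauss] at this
  let ψ : A[X] →+* (gaussVal A F hq).comap (algebraMap E₁ F) :=
    ψ₀.codRestrict ((gaussVal A F hq).comap (algebraMap E₁ F)).toSubring (fun p => by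
      change algebraMap E₁ F (ψ₀ p) ∈ gaussVal A F hq
      rw [hψ₀]; exact hmem p)
  set φ : (gaussVal A F hq).comap (algebraMap E₁ F) →+* F :=
    (algebraMap E₁ F).comp ((gaussVal A F hq).comap (algebraMap E₁ F)).subtype with hφ
  have hφψ : ∀ p, φ (ψ p) = evA A jF p := fun p => hψ₀ p
  have hcF : evJ A c ∈ F := evJ_mem hj c
  have hbF : inc A b ∈ F := by rw [← hfb]; exact mul_mem (f : F).2 hcF
  have hb' : φ.IsIntegralElem (⟨inc A b, hbF⟩ : F) := by
    obtain ⟨P, hP, hPb⟩ := hb
    refine ⟨P.map ψ, hP.map ψ, ?_⟩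
    rw [eval₂_map]
    apply (algebraMap F (LaurentSeries K)).injective
    rw [hom_eval₂, map_zero, ← hPb]
    congr 1
    exact RingHom.ext fun p => by
      rw [RingHom.comp_apply, RingHom.comp_apply, hφψ]
      exact coe_evA_j hj p
  have hcu : IsUnit (⟨evA A jF c, hmem c⟩ : gaussVal A F hq) := by
    rw [isUnit_iff_gaussRes_ne_zero hq]
    have h1 : (⟨evA A jF c, hmem c⟩ : gaussVal A F hq) =
        gaussMk hq (evalJ A c) (by rw [← evJ_apply]; exact hcF) := by
      apply Subtype.ext; apply Subtype.ext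
      exact coe_evA_j hj c
    rw [h1, gaussRes_gaussMk]
    exact hc
  have hc0 : evA A jF c ≠ 0 := by
    intro h0
    apply hcu.ne_zero
    exact Subtype.ext h0
  have hinv : (evA A jF c)⁻¹ ∈ gaussVal A F hq := by
    obtain ⟨v, hv⟩ := hcu
    have h1 : ((v : gaussVal A F hq) : F) * (((v⁻¹ : (gaussVal A F hq)ˣ) : gaussVal A F hq) : F)
        = 1 := congrArg (Subtype.val : gaussVal A F hq → F) (Units.mul_inv v)
    rw [hv] at h1
    rw [← eq_inv_of_mul_eq_one_right h1]
    exact Subtype.mem _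
  have hinv' : (ψ₀ c)⁻¹ ∈ (gaussVal A F hq).comap (algebraMap E₁ F) := by
    change algebraMap E₁ F (ψ₀ c)⁻¹ ∈ gaussVal A F hq
    rw [map_inv₀, hψ₀]; exact hinv
  have hfeq : (f : F) = (⟨inc A b, hbF⟩ : F) * φ ⟨(ψ₀ c)⁻¹, hinv'⟩ := by
    have h1 : φ ⟨(ψ₀ c)⁻¹, hinv'⟩ = (evA A jF c)⁻¹ := by
      change algebraMap E₁ F (ψ₀ c)⁻¹ = _
      rw [map_inv₀, hψ₀]
    have h2 : (f : F) * evA A jF c = ⟨inc A b, hbF⟩ := by
      apply Subtype.ext
      change ((f : F) : LaurentSeries K) * ((evA A jF c : F) : LaurentSeries K) = inc A b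
      rw [coe_evA_j hj c, hfb]
    rw [h1, ← h2, mul_inv_cancel_right₀ hc0]
  rw [hfeq]
  exact hb'.mul _ (φ.isIntegralElem_map)

omit [CharZero K] in
/-- The uniformizer is not invertible in the Gauss ring. -/
theorem inv_unif_notMem {π : A} (hπ : Irreducible π) :
    (algebraMap K F (π : K))⁻¹ ∉ gaussVal A F hq := by
  intro h
  apply (irreducible_gaussC hq hπ).not_isUnit
  refine IsUnit.of_mul_eq_one ⟨_, h⟩ ?_
  apply Subtype.ext
  change (gaussC hq π : F) * (algebraMap K F (π : K))⁻¹ = 1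
  rw [coe_gaussC']
  refine mul_inv_cancel₀ ?_
  rw [Ne, map_eq_zero]
  exact fun h0 => hπ.ne_zero (Subtype.ext h0)

omit [CharZero K] in
/-- Non-units of the Gauss ring are divisible by the uniformizer. -/
theorem exists_eq_unif_mul {π : A} (hπ : Irreducible π) (y : F) (hy : y ∈ gaussVal A F hq)
    (hy' : y⁻¹ ∉ gaussVal A F hq) :
    ∃ z ∈ gaussVal A F hq, y = algebraMap K F (π : K) * z := by
  have h1 : ¬ IsUnit (⟨y, hy⟩ : gaussVal A F hq) := by
    rintro ⟨v, hv⟩
    apply hy'
    have h2 : ((v : gaussVal A F hq) : F) * (((v⁻¹ : (gaussVal A F hq)ˣ) : gaussVal A F hq) : F)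
        = 1 := congrArg (Subtype.val : gaussVal A F hq → F) (Units.mul_inv v)
    rw [hv] at h2
    rw [← eq_inv_of_mul_eq_one_right h2]
    exact Subtype.mem _
  rw [isUnit_iff_gaussRes_ne_zero hq, not_not, gaussRes_eq_zero_iff hq hπ] at h1
  obtain ⟨g, hg⟩ := h1
  refine ⟨g, g.2, ?_⟩
  have := congrArg (Subtype.val : gaussVal A F hq → F) hg
  rw [← coe_gaussC' hq]
  exact this

omit [CharZero K] in
/-- Compatibility of the Gauss rings of `F ≤ L`. -/
theorem mem_gaussVal_of_le {L : IntermediateField K (LaurentSeries K)} (hFL : F ≤ L)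
    (hqL : IsQuot A L) (y : F) :
    IntermediateField.inclusion hFL y ∈ gaussVal A L hqL ↔ y ∈ gaussVal A F hq := by
  constructor
  · intro h
    by_contra hy
    obtain ⟨π, hπ⟩ := IsDiscreteValuationRing.exists_irreducible A
    have hinv : y⁻¹ ∈ gaussVal A F hq := ((gaussVal A F hq).mem_or_inv_mem y).resolve_left hy
    obtain ⟨z, hz, hyz⟩ := exists_eq_unif_mul hq hπ y⁻¹ hinv (by rwa [inv_inv])
    obtain ⟨P, Q, hP, hQ, hQ0, hPQ⟩ := hz
    have hzL : IntermediateField.inclusion hFL z ∈ gaussVal A L hqL :=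
      ⟨P, Q, hFL hP, hFL hQ, hQ0, hPQ⟩
    apply inv_unif_notMem hqL hπ
    have hy0 : y ≠ 0 := by
      rintro rfl
      exact hy (gaussVal A F hq).zero_mem
    have hπ0 : algebraMap K F (π : K) ≠ 0 := by
      rw [Ne, map_eq_zero]
      exact fun h0 => hπ.ne_zero (Subtype.ext h0)
    have h1 : (algebraMap K L (π : K))⁻¹ =
        IntermediateField.inclusion hFL y * IntermediateField.inclusion hFL z := by
      rw [← map_mul]
      have h2 : y * z = (algebraMap K F (π : K))⁻¹ := by
        have h3 : z = (algebraMap K F (π : K))⁻¹ * y⁻¹ := by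
          rw [hyz, inv_mul_cancel_left₀ hπ0]
        rw [h3, mul_comm _ y⁻¹, mul_inv_cancel_left₀ hy0]
      rw [h2, map_inv₀]
      congr 1
    rw [h1]
    exact (gaussVal A L hqL).mul_mem _ _ h hzL
  · rintro ⟨P, Q, hP, hQ, hQ0, hPQ⟩
    exact ⟨P, Q, hFL hP, hFL hQ, hQ0, hPQ⟩

/-- `K(j, u)` is generated by `u` over the image of `Frac A[j]`. -/
theorem adjoin_u_eq_top {KK : Type*} [Field KK] [Algebra KK (bigField A D hℓ)]
    (ψ : A[X] →+* KK)
    (hψ : ∀ p, ((algebraMap KK (bigField A D hℓ) (ψ p) : bigField A D hℓ) : LaurentSeries K) =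
      evJ A p)
    (uL : bigField A D hℓ) (huL : (uL : LaurentSeries K) = inc A (uS D (zlTo A hℓ))) :
    KK⟮uL⟯ = ⊤ := by
  rw [eq_top_iff]
  intro z _
  let S : Subfield (LaurentSeries K) :=
    (KK⟮uL⟯).toSubfield.map (algebraMap (bigField A D hℓ) (LaurentSeries K))
  have hS : ∀ p : A[X], evJ A p ∈ S := by
    intro p
    refine ⟨algebraMap KK (bigField A D hℓ) (ψ p), ?_, hψ p⟩
    exact (KK⟮uL⟯).algebraMap_mem _
  have hK : ∀ c : K, algebraMap K (LaurentSeries K) c ∈ S := by
    intro c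
    rcases A.mem_or_inv_mem c with hc | hc
    · have := hS (C ⟨c, hc⟩)
      rwa [evJ_C] at this
    · have := hS (C ⟨c⁻¹, hc⟩)
      rw [evJ_C] at this
      have h2 := S.inv_mem this
      rwa [← map_inv₀, inv_inv] at h2
  have hle : bigField A D hℓ ≤ S.toIntermediateField hK := by
    rw [bigField, IntermediateField.adjoin_le_iff]
    rintro y (rfl | rfl)
    · have := hS X
      rwa [evJ_X] at this
    · exact ⟨uL, mem_adjoin_simple_self KK uL, huL⟩
  obtain ⟨z', hz', hzz'⟩ := hle z.2
  have : z' = z := Subtype.ext hzz'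
  rw [← this]
  exact hz'

include hF in
/-- **Nondegeneracy of the trace form modulo `π`.**  For every field `E` between `K(j)` and `F`
there is `y₁` in the Gauss ring of `F` whose trace to `E` is not divisible by `π`. -/
theorem exists_trace_notMem {E : Type*} [Field E] [Algebra E F] (ψE : A[X] →+* E)
    (hψE : ∀ p, algebraMap E F (ψE p) = evA A (⟨jqModC K, hj⟩ : F) p) {π : A}
    (hπ : Irreducible π) :
    ∃ y₁ ∈ gaussVal A F hq, ¬ ∃ w ∈ gaussVal A F hq,
      algebraMap E F (Algebra.trace E F y₁) = algebraMap K F (π : K) * w := by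
  have hjL : jqModC K ∈ bigField A D hℓ := jqModC_mem_bigField
  have hqL : IsQuot A (bigField A D hℓ) := isQuot hjL le_rfl
  have hcoeE : ∀ p, ((algebraMap E F (ψE p) : F) : LaurentSeries K) = evJ A p := by
    intro p
    rw [hψE]
    exact coe_evA_j hj p
  have hinjE : Function.Injective ψE := by
    intro p q hpq
    apply evJ_injective A
    rw [← hcoeE, ← hcoeE, hpq]
  have : CharZero A := ⟨fun m n h => by
    have h2 := congrArg (Subtype.val : A → K) h
    exact_mod_cast h2⟩
  let KK := FractionRing A[X]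
  haveI : CharZero KK := charZero_of_injective_algebraMap (IsFractionRing.injective A[X] KK)
  let ι₁ : KK →+* E := IsFractionRing.lift hinjE
  have hι₁ : ∀ p, ι₁ (algebraMap A[X] KK p) = ψE p := fun p => IsFractionRing.lift_algebraMap hinjE p
  letI : Algebra KK E := ι₁.toAlgebra
  letI : Algebra KK F := ((algebraMap E F).comp ι₁).toAlgebra
  letI : Algebra F (bigField A D hℓ) := (IntermediateField.inclusion hF).toRingHom.toAlgebra
  letI : Algebra E (bigField A D hℓ) :=
    ((algebraMap F (bigField A D hℓ)).comp (algebraMap E F)).toAlgebra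
  letI : Algebra KK (bigField A D hℓ) := ((algebraMap E (bigField A D hℓ)).comp ι₁).toAlgebra
  letI : Algebra A[X] (bigField A D hℓ) :=
    ((algebraMap KK (bigField A D hℓ)).comp (algebraMap A[X] KK)).toAlgebra
  haveI : IsScalarTower KK E F := IsScalarTower.of_algebraMap_eq fun _ => rfl
  haveI : IsScalarTower KK E (bigField A D hℓ) := IsScalarTower.of_algebraMap_eq fun _ => rfl
  haveI : IsScalarTower KK F (bigField A D hℓ) := IsScalarTower.of_algebraMap_eq fun _ => rfl
  haveI : IsScalarTower E F (bigField A D hℓ) := IsScalarTower.of_algebraMap_eq fun _ => rfl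
  haveI : IsScalarTower A[X] KK (bigField A D hℓ) := IsScalarTower.of_algebraMap_eq fun _ => rfl
  -- the basic compatibility
  have hstar : ∀ p : A[X], ((algebraMap KK (bigField A D hℓ) (algebraMap A[X] KK p) :
      bigField A D hℓ) : LaurentSeries K) = evJ A p := by
    intro p
    change ((algebraMap E F (ι₁ (algebraMap A[X] KK p)) : F) : LaurentSeries K) = evJ A p
    rw [hι₁, hcoeE]
  have hcomp : (algebraMap (bigField A D hℓ) (LaurentSeries K)).comp
      (algebraMap A[X] (bigField A D hℓ)) = evJ A := RingHom.ext hstar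
  let uL : bigField A D hℓ := ⟨inc A (uS D (zlTo A hℓ)),
    IntermediateField.subset_adjoin K _ (by simp)⟩
  have haeval : ∀ Q : A[X][X], ((aeval uL Q : bigField A D hℓ) : LaurentSeries K) =
      inc A (Q.eval₂ (evalJ A) (uS D (zlTo A hℓ))) := by
    intro Q
    rw [← eval₂_evJ, ← hcomp, aeval_def]
    exact hom_eval₂ Q _ (algebraMap (bigField A D hℓ) (LaurentSeries K)) uL
  have hu : aeval uL (chiS D (zlTo A hℓ)) = 0 := by
    apply Subtype.ext
    rw [haeval, chiS_eval, map_zero]
    rfl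
  have htop : KK⟮uL⟯ = ⊤ := adjoin_u_eq_top (algebraMap A[X] KK) hstar uL rfl
  obtain ⟨hfin, htr⟩ := trace_euler (KK := KK) (chiS D (zlTo A hℓ)) (irreducible_chiA A D hℓ)
    (chiS_monic D _) uL hu htop
  -- the trace-one element lies in the Gauss ring
  obtain ⟨v, hv⟩ := isUnit_derivative D (zlTo A hℓ)
  set y₀ : bigField A D hℓ := uL ^ ((chiS D (zlTo A hℓ)).natDegree - 1) /
    aeval uL (derivative (chiS D (zlTo A hℓ))) with hy₀
  have hy₀c : (y₀ : LaurentSeries K) = inc A (uS D (zlTo A hℓ) ^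
      ((chiS D (zlTo A hℓ)).natDegree - 1) * ((v⁻¹ : (LaurentSeries A)ˣ) : LaurentSeries A)) := by
    have h1 : (y₀ : LaurentSeries K) = inc A (uS D (zlTo A hℓ)) ^
        ((chiS D (zlTo A hℓ)).natDegree - 1) /
        ((aeval uL (derivative (chiS D (zlTo A hℓ))) : bigField A D hℓ) : LaurentSeries K) := by
      rw [hy₀]
      push_cast
      rfl
    rw [h1, haeval, ← hv, map_mul, map_pow, div_eq_mul_inv]
    congr 1
    refine inv_eq_of_mul_eq_one_right ?_
    rw [← map_mul, Units.mul_inv, map_one]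
  have hy₀V : y₀ ∈ gaussVal A (bigField A D hℓ) hqL := by
    have h1 := inc_mem_gaussVal hqL _ (by rw [← hy₀c]; exact y₀.2)
    have h2 : (⟨inc A (uS D (zlTo A hℓ) ^ ((chiS D (zlTo A hℓ)).natDegree - 1) *
        ((v⁻¹ : (LaurentSeries A)ˣ) : LaurentSeries A)), by rw [← hy₀c]; exact y₀.2⟩ :
        bigField A D hℓ) = y₀ := Subtype.ext hy₀c.symm
    rwa [h2] at h1
  -- integrality
  have hint : ∀ y ∈ gaussVal A (bigField A D hℓ) hqL,
      ((algebraMap KK (bigField A D hℓ)).comp ((gaussVal A (bigField A D hℓ) hqL).comap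
        (algebraMap KK (bigField A D hℓ))).subtype).IsIntegralElem y := by
    intro y hy
    exact isIntegralElem_comap' hjL le_rfl hqL (algebraMap A[X] KK)
      (fun p => Subtype.ext (by rw [hstar, coe_evA_j hjL])) ⟨y, hy⟩
  -- the uniformizer
  have hϖ : algebraMap KK (bigField A D hℓ) (algebraMap A[X] KK (C π)) =
      algebraMap K (bigField A D hℓ) (π : K) := by
    apply Subtype.ext
    rw [hstar, evJ_C]
    rfl
  obtain ⟨y₁, hy₁, hy₁'⟩ := exists_trace_not_mem (E₁ := KK) (E₂ := E) (E₃ := F)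
    (E₄ := bigField A D hℓ) (gaussVal A (bigField A D hℓ) hqL) hint (algebraMap A[X] KK (C π))
    (by rw [hϖ]; exact inv_unif_notMem hqL hπ) y₀ hy₀V htr
  refine ⟨y₁, (mem_gaussVal_of_le hq hF hqL y₁).mp hy₁, ?_⟩
  rintro ⟨w, hw, hwt⟩
  apply hy₁'
  refine ⟨IntermediateField.inclusion hF w, (mem_gaussVal_of_le hq hF hqL w).mpr hw, ?_⟩
  rw [hϖ]
  change IntermediateField.inclusion hF (algebraMap E F (Algebra.trace E F y₁)) = _
  rw [hwt, map_mul]
  rfl

end

end Fermat.Agent.S18.Vert

end
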