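/-
KL-A, node (4)-S28 "vertical modular inputs" (owner of this file: helper88).

The structure `GoodRed.GaussData` (helper160) for the Gauss valuation ring of a field
`K(j) ⊆ F ⊆ K(j, u)` and a base `x` with transcendental reduction and `j ∈ K(x)`.
-/
import Fermat.Agent.S18.Vert.Trace
import Fermat.Agent.Lib.GoodRed.Defs

set_option autoImplicit false
set_option linter.unusedSectionVars false
set_option linter.style.haveILetI false

noncomputable section

namespace Fermat.Agent.S18.Vert

open ModularCurve Polynomial Fermat.Agent.S28 IntermediateField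

variable {K : Type*} [Field K] [CharZero K] {A : ValuationSubring K} [IsDiscreteValuationRing A]
variable {N ℓ : ℕ} [Fact ℓ.Prime] {D : UData N ℓ} {hℓ : A.LiesOverPrime ℓ}
variable {F : IntermediateField K (LaurentSeries K)}
variable (hj : jqModC K ∈ F) (hF : F ≤ bigField A D hℓ) (hq : IsQuot A F)
variable {E : Type*} [Field E] [Algebra K E] [Algebra A E] [IsScalarTower A K E] [Algebra E F]
  [IsScalarTower K E F]

omit [CharZero K] [IsDiscreteValuationRing A] in
theorem algebraMap_algebraMap_eq (a : A) :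
    algebraMap E F (algebraMap A E a) = algebraMap K F (a : K) := by
  rw [IsScalarTower.algebraMap_apply A K E, ← IsScalarTower.algebraMap_apply K E F]
  rfl

omit [CharZero K] [IsDiscreteValuationRing A] in
theorem comp_aeval_eq_evA (x : E) :
    (algebraMap E F).comp ((aeval x : A[X] →ₐ[A] E) : A[X] →+* E) = evA A (algebraMap E F x) := by
  refine Polynomial.ringHom_ext (fun a => ?_) ?_
  · simp only [RingHom.comp_apply, RingHom.coe_coe, aeval_C, evA, coe_eval₂RingHom, eval₂_C]
    exact algebraMap_algebraMap_eq a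
  · simp [evA]

omit [CharZero K] [IsDiscreteValuationRing A] in
theorem algebraMap_aeval_eq_evA (x : E) (p : A[X]) :
    algebraMap E F (aeval x p) = evA A (algebraMap E F x) p :=
  congrArg (fun g : A[X] →+* F => g p) (comp_aeval_eq_evA x)

omit [CharZero K] in
theorem map_residue_ne_zero_of_isPrim {π : A} (hπ : Irreducible π) {p : A[X]}
    (hp : GoodRed.IsPrim π p) : p.map (IsLocalRing.residue A) ≠ 0 := by
  obtain ⟨i, hi⟩ := hp
  intro h0
  apply hi
  rw [← residue_eq_zero_iff_dvd hπ, ← coeff_map, h0, coeff_zero]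

omit [CharZero K] in
theorem isPrim_of_map_residue_ne_zero {π : A} (hπ : Irreducible π) {p : A[X]}
    (hp : p.map (IsLocalRing.residue A) ≠ 0) : GoodRed.IsPrim π p := by
  by_contra hcon
  apply hp
  ext i
  rw [coeff_map, coeff_zero, residue_eq_zero_iff_dvd hπ]
  by_contra hi
  exact hcon ⟨i, hi⟩

include hF in
/-- **`GaussData` for the modular function field.** -/
theorem gaussData (x : E) (hxO : algebraMap E F x ∈ gaussVal A F hq)
    (hx : Transcendental (IsLocalRing.ResidueField A) (gaussRes hq ⟨algebraMap E F x, hxO⟩))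
    (jE : E) (hjE : algebraMap E F jE = ⟨jqModC K, hj⟩)
    (hjx : (⟨jqModC K, hj⟩ : F) ∈ K⟮algebraMap E F x⟯) {π : A} (hπ : Irreducible π) :
    GoodRed.GaussData A π (gaussVal A F hq) x where
  algebraMap_mem a := by
    rw [algebraMap_algebraMap_eq, ← coe_gaussC' hq]
    exact Subtype.mem _
  inv_unif_notMem := by
    rw [algebraMap_algebraMap_eq]
    exact inv_unif_notMem hq hπ
  unif y hy hy' := by
    rw [algebraMap_algebraMap_eq]
    exact exists_eq_unif_mul hq hπ y hy hy'
  gauss p hp := by
    rw [algebraMap_aeval_eq_evA]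
    have h1 := gaussRes_evG_ne_zero hq ⟨algebraMap E F x, hxO⟩ hx p
      (map_residue_ne_zero_of_isPrim hπ hp)
    rw [← isUnit_iff_gaussRes_ne_zero hq] at h1
    have h2 : (evG hq ⟨algebraMap E F x, hxO⟩ p : F) = evA A (algebraMap E F x) p :=
      coe_evG hq _ p
    refine ⟨by rw [← h2]; exact Subtype.mem _, ?_⟩
    obtain ⟨v, hv⟩ := h1
    have h3 : ((v : gaussVal A F hq) : F) * (((v⁻¹ : (gaussVal A F hq)ˣ) : gaussVal A F hq) : F)
        = 1 := congrArg (Subtype.val : gaussVal A F hq → F) (Units.mul_inv v)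
    rw [hv, h2] at h3
    rw [← eq_inv_of_mul_eq_one_right h3]
    exact Subtype.mem _
  integral y hy := by
    obtain ⟨c, b, hc, hb, hyb⟩ := exists_integral_div_base hj hF hq ⟨algebraMap E F x, hxO⟩ hx hjx
      ⟨y, hy⟩
    refine ⟨c, isPrim_of_map_residue_ne_zero hπ hc, ?_⟩
    rw [GoodRed.IntO, comp_aeval_eq_evA, algebraMap_aeval_eq_evA, mul_comm]
    rw [← hyb] at hb
    exact hb
  sep y hy h := by
    rw [algebraMap_algebraMap_eq] at h ⊢
    by_cases hy' : y⁻¹ ∈ gaussVal A F hq
    · by_cases hy0 : y = 0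
      · exact ⟨0, (gaussVal A F hq).zero_mem, by rw [hy0, mul_zero]⟩
      exfalso
      obtain ⟨y₁, hy₁, hy₁'⟩ := exists_trace_notMem hj hF hq
        ((aeval jE : A[X] →ₐ[A] E) : A[X] →+* E)
        (fun p => by
          have := algebraMap_aeval_eq_evA (F := F) jE p
          rw [hjE] at this
          exact this) hπ
      apply hy₁'
      obtain ⟨w, hw, hwt⟩ := h (y⁻¹ * y₁) ((gaussVal A F hq).mul_mem _ _ hy' hy₁)
      rw [mul_inv_cancel_left₀ hy0] at hwt
      exact ⟨w, hw, hwt⟩
    · exact exists_eq_unif_mul hq hπ y hy hy'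

end Fermat.Agent.S18.Vert

end
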