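/-
KL-A, node (4)-S28 "vertical modular inputs".

Abstract lemmas for the separability of the residue extension.
-/
import Mathlib
import Fermat.Agent.S28.Euler

set_option autoImplicit false

noncomputable section

namespace Fermat.Agent.S18.Vert

open Polynomial IntermediateField Fermat.Agent.S28

/-- Euler's lemma in the setting of `S28.euler_core`: `χ'(u) x ∈ A[u]` for integral `x`. -/
theorem euler_core_mem {A Ω : Type*} [CommRing A] [IsDomain A] [IsIntegrallyClosed A]
    [CharZero A] [Field Ω] (φ : A →+* Ω) (hφ : Function.Injective φ)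
    (χ : A[X]) (hirr : Irreducible χ) (hmonic : χ.Monic) (u : Ω) (hu : χ.eval₂ φ u = 0)
    (x : Ω) (hx : ∀ S : Subfield Ω, (∀ a, φ a ∈ S) → u ∈ S → x ∈ S)
    (hint : φ.IsIntegralElem x) :
    ∃ Q : A[X], (derivative χ).eval₂ φ u * x = Q.eval₂ φ u := by
  let K := FractionRing A
  let _ : Algebra A Ω := φ.toAlgebra
  let _ : Algebra K Ω := (IsFractionRing.lift hφ : K →+* Ω).toAlgebra
  have : IsScalarTower A K Ω :=
    IsScalarTower.of_algebraMap_eq fun a => (IsFractionRing.lift_algebraMap hφ a).symm
  have hφalg : algebraMap A Ω = φ := rfl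
  have : CharZero K := charZero_of_injective_algebraMap (IsFractionRing.injective A K)
  have hirr' : Irreducible (χ.map (algebraMap A K)) :=
    (Monic.irreducible_iff_irreducible_map_fraction_map hmonic).mp hirr
  have hroot : aeval u (χ.map (algebraMap A K)) = 0 := by
    rw [aeval_map_algebraMap, aeval_def, hφalg, hu]
  have hmin : minpoly K u = χ.map (algebraMap A K) :=
    (minpoly.eq_of_irreducible_of_monic hirr' hroot (hmonic.map _)).symm
  have huA : IsIntegral A u := ⟨χ, hmonic, hu⟩
  have huK : IsIntegral K u := huA.tower_top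
  let L := K⟮u⟯
  have : FiniteDimensional K L := adjoin.finiteDimensional huK
  have : IsScalarTower A L Ω := IsScalarTower.of_algebraMap_eq fun a => rfl
  let uL : L := AdjoinSimple.gen K u
  have huL : algebraMap L Ω uL = u := AdjoinSimple.algebraMap_gen K u
  have hinj : Function.Injective (algebraMap L Ω) := (algebraMap L Ω).injective
  have huLA : IsIntegral A uL := (isIntegral_algebraMap_iff hinj).mp (by rw [huL]; exact huA)
  have htop : Algebra.adjoin K {uL} = ⊤ := by
    have := (adjoin.powerBasis huK).adjoin_gen_eq_top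
    rwa [adjoin.powerBasis_gen] at this
  have hminL : minpoly K uL = χ.map (algebraMap A K) := by
    rw [minpoly_gen, hmin]
  have haeval : ∀ Q : A[X], algebraMap L Ω (aeval uL Q) = Q.eval₂ φ u := by
    intro Q
    rw [← aeval_algebraMap_apply, huL, aeval_def, hφalg]
  have hxL : x ∈ L := hx L.toSubfield (fun a => by
    have : algebraMap L Ω (algebraMap A L a) ∈ L := (algebraMap A L a).2
    exact this) (mem_adjoin_simple_self K u)
  have hxint : IsIntegral A (⟨x, hxL⟩ : L) := (isIntegral_algebraMap_iff hinj).mp hint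
  set s : L := aeval uL (derivative (minpoly K uL)) with hsdef
  have hs0 : s ≠ 0 := by
    intro h0
    have hsep : (minpoly K uL).Separable := Algebra.IsSeparable.isSeparable K uL
    have h1 : aeval uL (minpoly K uL) = 0 := minpoly.aeval K uL
    obtain ⟨a, b, hab⟩ := hsep
    have := congrArg (aeval uL) hab
    rw [map_add, map_mul, map_mul, h1, ← hsdef, h0, mul_zero, mul_zero, add_zero, map_one] at this
    exact zero_ne_one this
  have hmem := euler_mem_smul (K := K) uL huLA htop ⟨x, hxL⟩ hxint
  rw [← hsdef] at hmem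
  obtain ⟨c, hc, hcx⟩ := Submodule.mem_smul_pointwise_iff_exists _ _ _ |>.mp hmem
  have hsx : s * (⟨x, hxL⟩ : L) = c := by
    rw [← hcx, smul_eq_mul, mul_inv_cancel_left₀ hs0]
  have hc' : c ∈ Algebra.adjoin A {uL} := hc
  rw [Algebra.adjoin_singleton_eq_range_aeval] at hc'
  obtain ⟨Q, hQ⟩ := hc'
  replace hQ : aeval uL Q = c := hQ
  refine ⟨Q, ?_⟩
  have hs' : algebraMap L Ω s = (derivative χ).eval₂ φ u := by
    rw [hsdef, hminL, derivative_map, aeval_map_algebraMap, haeval]
  rw [← haeval Q, hQ, ← hsx, map_mul, hs']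
  rfl

/-- A root of a polynomial at which the derivative does not vanish is separable. -/
theorem isSeparable_of_aeval_derivative_ne_zero {E Ω : Type*} [Field E] [Field Ω] [Algebra E Ω]
    (p : E[X]) (z : Ω) (h0 : aeval z p = 0) (h1 : aeval z (derivative p) ≠ 0) :
    IsSeparable E z := by
  have hp0 : p ≠ 0 := by
    rintro rfl
    simp at h1
  have hint : IsIntegral E z := (isAlgebraic_iff_isIntegral).mp ⟨p, hp0, h0⟩
  obtain ⟨g, hg⟩ := minpoly.dvd E z h0
  have hder : derivative (minpoly E z) ≠ 0 := by
    intro hd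
    apply h1
    rw [hg, derivative_mul, hd, zero_mul, zero_add, map_mul, minpoly.aeval, zero_mul]
  exact (separable_iff_derivative_ne_zero (minpoly.irreducible hint)).mpr hder

/-- Separability passes to a bigger base field. -/
theorem isSeparable_of_le {k Ω : Type*} [Field k] [Field Ω] [Algebra k Ω]
    {E₀ E₁ : IntermediateField k Ω} (h : E₀ ≤ E₁) {z : Ω} (hz : IsSeparable E₀ z) :
    IsSeparable E₁ z := by
  let _ : Algebra E₀ E₁ := (IntermediateField.inclusion h).toRingHom.toAlgebra
  have : IsScalarTower E₀ E₁ Ω := IsScalarTower.of_algebraMap_eq fun a => rfl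
  exact hz.tower_top E₁

end Fermat.Agent.S18.Vert

end
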