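/-
KL-A, node (4)-S28 "vertical modular inputs".

The residue field of the Gauss valuation is contained in `k(j, u)`, which is separable over `k(j)`.
-/
import Fermat.Agent.S18.Vert.Modular
import Fermat.Agent.S18.Vert.SepAbs

set_option autoImplicit false
set_option linter.unusedSectionVars false

noncomputable section

namespace Fermat.Agent.S18.Vert

open ModularCurve Polynomial Fermat.Agent.S28 IntermediateField

variable {K : Type*} [Field K] [CharZero K] (A : ValuationSubring K) [IsDiscreteValuationRing A]
variable {N ℓ : ℕ} [Fact ℓ.Prime] (D : UData N ℓ) (hℓ : A.LiesOverPrime ℓ)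

/-- The field `k(j, u)`, `k` the residue field of `A`. -/
def resField : IntermediateField (IsLocalRing.ResidueField A)
    (LaurentSeries (IsLocalRing.ResidueField A)) :=
  IntermediateField.adjoin (IsLocalRing.ResidueField A)
    {jqModC (IsLocalRing.ResidueField A), uS D ((IsLocalRing.residue A).comp (zlTo A hℓ))}

/-- The field `k(j)`. -/
def resBase : IntermediateField (IsLocalRing.ResidueField A)
    (LaurentSeries (IsLocalRing.ResidueField A)) :=
  IntermediateField.adjoin (IsLocalRing.ResidueField A) {jqModC (IsLocalRing.ResidueField A)}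

/-- Constants of `k((q))` are the images of the structure map. -/
theorem Sep.C_eq_algebraMap {k : Type*} [Field k] (a : k) :
    (HahnSeries.C a : LaurentSeries k) = algebraMap k (LaurentSeries k) a := by
  rw [algebraMap_laurentSeries_eq_single]; rfl

/-- `P(j)` lies in any intermediate field containing `j`. -/
theorem Sep.evalJ_mem {k : Type*} [Field k] {E : IntermediateField k (LaurentSeries k)}
    (hj : jqModC k ∈ E) (P : k[X]) : evalJ k P ∈ E := by
  rw [evalJ_eq_sum]
  refine sum_mem fun i _ => mul_mem ?_ (pow_mem hj i)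
  rw [Sep.C_eq_algebraMap]
  exact E.algebraMap_mem _

/-- `Q(j, v)` lies in any intermediate field containing `j` and `v`. -/
theorem Sep.eval₂_evalJ_mem {k : Type*} [Field k] {E : IntermediateField k (LaurentSeries k)}
    (hj : jqModC k ∈ E) {v : LaurentSeries k} (hv : v ∈ E) (Q : k[X][X]) :
    Q.eval₂ (evalJ k) v ∈ E := by
  rw [eval₂_eq_sum_range]
  exact sum_mem fun i _ => mul_mem (Sep.evalJ_mem hj _) (pow_mem hv i)

theorem Sep.jq_mem_resBase : jqModC (IsLocalRing.ResidueField A) ∈ resBase A :=
  IntermediateField.subset_adjoin _ _ rfl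

theorem Sep.jq_mem_resField : jqModC (IsLocalRing.ResidueField A) ∈ resField A D hℓ :=
  IntermediateField.subset_adjoin _ _ (Set.mem_insert _ _)

theorem Sep.u_mem_resField :
    uS D ((IsLocalRing.residue A).comp (zlTo A hℓ)) ∈ resField A D hℓ :=
  IntermediateField.subset_adjoin _ _ (Set.mem_insert_of_mem _ rfl)

/-- `P ↦ P(j)` as a map to `k(j)`. -/
def Sep.theta : (IsLocalRing.ResidueField A)[X] →+* resBase A :=
  (evalJ (IsLocalRing.ResidueField A)).codRestrict (resBase A).toSubring
    (fun P => Sep.evalJ_mem (Sep.jq_mem_resBase A) P)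

theorem Sep.algebraMap_comp_theta :
    (algebraMap (resBase A) (LaurentSeries (IsLocalRing.ResidueField A))).comp (Sep.theta A) =
      evalJ (IsLocalRing.ResidueField A) := rfl

theorem Sep.isSeparable_u :
    IsSeparable (resBase A) (uS D ((IsLocalRing.residue A).comp (zlTo A hℓ))) := by
  set f := (IsLocalRing.residue A).comp (zlTo A hℓ) with hf
  refine isSeparable_of_aeval_derivative_ne_zero ((chiS D f).map (Sep.theta A)) (uS D f) ?_ ?_
  · rw [aeval_def, eval₂_map, Sep.algebraMap_comp_theta, chiS_eval]
  · rw [derivative_map, aeval_def, eval₂_map, Sep.algebraMap_comp_theta]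
    exact (isUnit_derivative D f).ne_zero

/-- Abstract form: elements of `k(j, u)` lie in `E(u)` when `j ∈ E`. -/
theorem Sep.mem_abs {k Ω : Type*} [Field k] [Field Ω] [Algebra k Ω]
    (E : IntermediateField k Ω) (j u z : Ω) (hj : j ∈ E)
    (hz : z ∈ IntermediateField.adjoin k {j, u}) : z ∈ E⟮u⟯ := by
  have hle : IntermediateField.adjoin k {j, u} ≤ (E⟮u⟯).restrictScalars k := by
    rw [IntermediateField.adjoin_le_iff]
    intro y hy
    rcases hy with hy | hy
    · have h1 : algebraMap E Ω ⟨j, hj⟩ ∈ E⟮u⟯ := (E⟮u⟯).algebraMap_mem _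
      rw [hy]
      exact h1
    · have h1 : u ∈ E⟮u⟯ := IntermediateField.mem_adjoin_simple_self _ _
      rw [Set.mem_singleton_iff.mp hy]
      exact h1
  exact hle hz

/-- Abstract form: `E(u)` is separable over `E` when `u` is. -/
theorem Sep.isSeparable_abs {k Ω : Type*} [Field k] [Field Ω] [Algebra k Ω]
    (E : IntermediateField k Ω) (u z : Ω) (hu : IsSeparable E u) (hz : z ∈ E⟮u⟯) :
    IsSeparable E z := by
  have h1 : E⟮u⟯ ≤ separableClosure E Ω := by
    rw [IntermediateField.adjoin_simple_le_iff]
    exact mem_separableClosure_iff.mpr hu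
  exact mem_separableClosure_iff.mp (h1 hz)

/-- `k(j, u)` is separable over `k(j)`. -/
theorem isSeparable_of_mem_resField (z : LaurentSeries (IsLocalRing.ResidueField A))
    (hz : z ∈ resField A D hℓ) : IsSeparable (resBase A) z :=
  Sep.isSeparable_abs (resBase A) _ z (Sep.isSeparable_u A D hℓ)
    (Sep.mem_abs (resBase A) _ _ z (Sep.jq_mem_resBase A) hz)

variable {A D hℓ}

/-- The reduction of an element of `K(j, u)` integral over `A[j]` lies in `k(j, u)`. -/
theorem red_mem_resField (b : LaurentSeries A) (hb : inc A b ∈ bigField A D hℓ)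
    (hint : (evJ A).IsIntegralElem (inc A b)) : red A b ∈ resField A D hℓ := by
  have : CharZero A := ⟨fun m n h => by
    have h2 := congrArg (Subtype.val : A → K) h
    exact_mod_cast h2⟩
  obtain ⟨Q, hQ⟩ := euler_core_mem (evJ A) (evJ_injective A) (chiS D (zlTo A hℓ))
    (irreducible_chiA A D hℓ) (chiS_monic D _) (inc A (uS D (zlTo A hℓ)))
    (by rw [eval₂_evJ, chiS_eval, map_zero]) (inc A b)
    (by
      intro S hS hu
      have hK : ∀ c : K, algebraMap K (LaurentSeries K) c ∈ S := by
        intro c
        rcases A.mem_or_inv_mem c with hc | hc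
        · have := hS (C ⟨c, hc⟩)
          rwa [evJ_C] at this
        · have := hS (C ⟨c⁻¹, hc⟩)
          rw [evJ_C] at this
          have h2 := S.inv_mem this
          rwa [← map_inv₀, inv_inv] at h2
      have hle : bigField A D hℓ ≤ S.toIntermediateField hK := by
        rw [bigField, IntermediateField.adjoin_le_iff]
        rintro y (rfl | rfl)
        · have := hS X
          rwa [evJ_X] at this
        · exact hu
      exact hle hb)
    hint
  rw [eval₂_evJ, eval₂_evJ, ← map_mul] at hQ
  have hQ' := inc_injective A hQ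
  have h1 := congrArg (coeffMap (IsLocalRing.residue A)) hQ'
  rw [map_mul, coeffMap_eval₂_evalJ, coeffMap_eval₂_evalJ, uS_comp] at h1
  have hu0 : IsUnit (((derivative (chiS D (zlTo A hℓ))).map
      (Polynomial.mapRingHom (IsLocalRing.residue A))).eval₂
        (evalJ (IsLocalRing.ResidueField A))
        (uS D ((IsLocalRing.residue A).comp (zlTo A hℓ)))) := by
    have := (isUnit_derivative D (zlTo A hℓ)).map (coeffMap (IsLocalRing.residue A))
    rwa [coeffMap_eval₂_evalJ, uS_comp] at this
  have h2 : red A b = (((derivative (chiS D (zlTo A hℓ))).map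
      (Polynomial.mapRingHom (IsLocalRing.residue A))).eval₂
        (evalJ (IsLocalRing.ResidueField A))
        (uS D ((IsLocalRing.residue A).comp (zlTo A hℓ))))⁻¹ *
      ((Q.map (Polynomial.mapRingHom (IsLocalRing.residue A))).eval₂
        (evalJ (IsLocalRing.ResidueField A))
        (uS D ((IsLocalRing.residue A).comp (zlTo A hℓ)))) := by
    rw [← h1, inv_mul_cancel_left₀ hu0.ne_zero]
    rfl
  rw [h2]
  exact mul_mem (inv_mem (Sep.eval₂_evalJ_mem (Sep.jq_mem_resField A D hℓ)
    (Sep.u_mem_resField A D hℓ) _)) (Sep.eval₂_evalJ_mem (Sep.jq_mem_resField A D hℓ)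
    (Sep.u_mem_resField A D hℓ) _)

variable {F : IntermediateField K (LaurentSeries K)}

theorem gaussRes_mem_resField (hj : jqModC K ∈ F) (hF : F ≤ bigField A D hℓ) (hq : IsQuot A F)
    (f : gaussVal A F hq) : gaussRes hq f ∈ resField A D hℓ := by
  obtain ⟨c, b, hc, hint, h⟩ := exists_integral_div hj hF hq f
  have hb : inc A b ∈ bigField A D hℓ := by
    rw [← h]
    exact hF (mul_mem (f : F).2 (evJ_mem hj c))
  have h1 := gaussRes_spec hq f (P := b) (Q := evalJ A c) hc h
  have h2 : gaussRes hq f = red A b * (red A (evalJ A c))⁻¹ := by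
    rw [← h1, mul_inv_cancel_right₀ hc]
  rw [h2]
  refine mul_mem (red_mem_resField b hb hint) (inv_mem ?_)
  have h3 : red A (evalJ A c) =
      evalJ (IsLocalRing.ResidueField A) (c.map (IsLocalRing.residue A)) := coeffMap_evalJ _ c
  rw [h3]
  exact Sep.evalJ_mem (Sep.jq_mem_resField A D hℓ) _

/-- **Separability of the residue extension** of the Gauss valuation over `k(j)`. -/
theorem isSeparable_gaussRes (hj : jqModC K ∈ F) (hF : F ≤ bigField A D hℓ) (hq : IsQuot A F)
    (f : gaussVal A F hq) : IsSeparable (resBase A) (gaussRes hq f) :=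
  isSeparable_of_mem_resField A D hℓ _ (gaussRes_mem_resField hj hF hq f)

end Fermat.Agent.S18.Vert

end
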